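import Fermat.Agent.S48.H76.GenQX3
import Fermat.Agent.S24.Mod.H997HolBase
import Fermat.Agent.S28.H748.Package
import Fermat.Agent.S48.F1.Defs

/-!
# S48 / Tower A1, piece A1-FF (helper76): analytic avatars of the generators of `F1 M`

* `yW M w = G_w / Δ` (`G_w` the level-`M` Eisenstein series of weight `12` with periodic weight `w`):
  holomorphic on `ℍ`, `yW ∘ γ = yW (γ · w)` for all `γ ∈ SL(2,ℤ)`, expansion in `X = e^{2πiτ/M}`
  with explicit coefficients (`infExp_yW`, `coefX_mem`); hence `yW M w ∈ S24.H997.holN M`.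
* `pFun M a = C₁₂⁻¹ · G_{[v₀ = a]} / Δ` is the analytic avatar of the generator
  `P_a = F1.divGenC ℂ M a` of the function field `F1 M` of `X₁(M)`:
  `infExp_pFun : InfExp 1 (pFun M a) (F1.divGenC ℂ M a)` (`a ≠ 0`),
  `compSL_pFun : compSL γ (pFun M a) = pFun M (a * γ 0 0)` for `γ ∈ Γ₀(M)`,
  `pFun_smul_Gamma1`, `pFun_neg`, `pFun_mem_holN`, `mdiff_pFun`,
  `hasSum_typeI`, `qExpansion_typeI` (any weight `k + 1 ≥ 3`).
-/

set_option autoImplicit false

open UpperHalfPlane EisensteinSeries ModularForm Filter Topology Complex CongruenceSubgroup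
open HahnSeries ModularCurve
open scoped Matrix MatrixGroups Manifold Real

noncomputable section

namespace Fermat.Agent.S48.H76

open Fermat.Agent.S29 Fermat.Agent.S24 Fermat.Agent.S24.H997 Fermat.Agent.S24.H624
open Fermat.Agent.S28 Fermat.Agent.S28.H748

local notation "𝕢" => Function.Periodic.qParam
local notation "Δ" => ModularForm.discriminant

/-- The expansion of `G_w` in `X = e^{2πiτ/M}` as a power series. -/
def coefXSeries (M : ℕ) (w : ZMod M → ZMod M → ℂ) (k : ℕ) : PowerSeries ℂ :=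
  PowerSeries.mk (coefX M w k)

theorem infPExp_wEis (M : ℕ) [NeZero M] {k : ℕ} (hk : 2 ≤ k) (w : ZMod M → ZMod M → ℂ) :
    InfPExp M (H332.wEis (perWeight M w) ((k + 1 : ℕ) : ℤ)) (coefXSeries M w k) := by
  intro τ
  have H := hasSum_wEis_periodic M hk w τ
  simpa [coefXSeries, infZ, smul_eq_mul] using H

/-- The weight-zero function `G_w / Δ` (`G_w` of weight `12`). -/
def yW (M : ℕ) (w : ZMod M → ZMod M → ℂ) (τ : ℍ) : ℂ :=
  H332.wEis (perWeight M w) ((11 + 1 : ℕ) : ℤ) τ * (Δ τ)⁻¹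

/-- The expansion of `yW M w` in `X`. -/
def yWSeries (M : ℕ) [NeZero M] (w : ZMod M → ZMod M → ℂ) : LaurentSeries ℂ :=
  ofPowerSeries ℤ ℂ (coefXSeries M w 11) * qExpand ℂ M H565.deltaInvSeriesC

theorem infExp_yW (M : ℕ) [NeZero M] (w : ZMod M → ZMod M → ℂ) :
    InfExp M (yW M w) (yWSeries M w) := by
  have h1 := (infPExp_wEis M (k := 11) (by norm_num) w).infExp 0
  have h2 : InfExp M (H332.wEis (perWeight M w) ((11 + 1 : ℕ) : ℤ))
      (ofPowerSeries ℤ ℂ (coefXSeries M w 11)) := by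
    have e : (single (0 : ℤ) (1 : ℂ) * ofPowerSeries ℤ ℂ (coefXSeries M w 11)) =
        ofPowerSeries ℤ ℂ (coefXSeries M w 11) := by
      rw [show (single (0 : ℤ) (1 : ℂ)) = 1 from rfl, one_mul]
    rw [e] at h1
    refine h1.congr fun τ => ?_
    simp
  exact h2.mul (infExp_level (N := M) infExp_one_deltaInv)

theorem mdiff_yW (M : ℕ) [NeZero M] (w : ZMod M → ZMod M → ℂ) : MDiff (yW M w) :=
  Fermat.Agent.S28.H748.InfExp.mdiff748 (infExp_yW M w)

/-- **Translates**: `yW w ∘ γ = yW (γ · w)` for every `γ ∈ SL(2,ℤ)`. -/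
theorem compSL_yW (M : ℕ) (w : ZMod M → ZMod M → ℂ) (γ : SL(2, ℤ)) :
    compSL γ (yW M w) = yW M (actW M γ w) := by
  funext τ
  have h := congrFun (perWeight_slash M w ((11 + 1 : ℕ) : ℤ) γ) τ
  rw [SL_slash_apply] at h
  simp only [compSL_apply, yW]
  rw [← h, Fermat.Agent.S24.JFun.discriminant_smul]
  have hd : denom γ τ ≠ 0 := denom_ne_zero γ τ
  have hΔ : Δ τ ≠ 0 := discriminant_ne_zero τ
  have e12 : (((11 + 1 : ℕ) : ℤ)) = (12 : ℤ) := by norm_num
  rw [e12, zpow_neg]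
  field_simp

theorem yW_mem_holN (M : ℕ) [NeZero M] (w : ZMod M → ZMod M → ℂ) : yW M w ∈ holN M := by
  refine ⟨mdiff_yW M w, fun γ => ?_⟩
  rw [compSL_yW]
  exact (infExp_yW M (actW M γ w)).mem_expRing

/-! ### Rationality of the expansions -/

/-- Fourier inversion on `ℤ/M`. -/
theorem fourier_inversion (M : ℕ) [NeZero M] (g : ZMod M → ℂ) (b : ZMod M) :
    g b = (M : ℂ)⁻¹ * ∑ c ∈ Finset.range M, hatG M g (c : ℤ) * gZ M (c : ℤ) b := by
  have hM : (M : ℂ) ≠ 0 := Nat.cast_ne_zero.mpr (NeZero.ne M)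
  have hb : b.val ∈ Finset.range M := Finset.mem_range.mpr (ZMod.val_lt b)
  have h1 : ∀ c ∈ Finset.range M, hatG M g (c : ℤ) * gZ M (c : ℤ) b =
      ∑ b' ∈ Finset.range M, g (b' : ZMod M) * zetaPow M ((c : ℤ) * ((b' : ℤ) - (b.val : ℤ))) := by
    intro c _
    unfold hatG gZ
    rw [Finset.sum_mul]
    refine Finset.sum_congr rfl fun b' _ => ?_
    rw [mul_assoc, ← zetaPow_add]
    congr 2
    ring
  rw [Finset.sum_congr rfl h1, Finset.sum_comm]
  have h2 : ∀ b' ∈ Finset.range M,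
      ∑ c ∈ Finset.range M, g (b' : ZMod M) * zetaPow M ((c : ℤ) * ((b' : ℤ) - (b.val : ℤ))) =
        if b' = b.val then (M : ℂ) * g b else 0 := by
    intro b' hb'
    rw [← Finset.mul_sum, sum_range_zetaPow]
    have hb'M := Finset.mem_range.mp hb'
    have hbM := ZMod.val_lt b
    by_cases h : b' = b.val
    · rw [if_pos h, h, sub_self, if_pos (dvd_zero _), ZMod.natCast_zmod_val, mul_comm]
    · rw [if_neg h, if_neg, mul_zero]
      intro hdvd
      apply h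
      have h3 : |(b' : ℤ) - (b.val : ℤ)| < (M : ℤ) := by
        rw [abs_lt]
        constructor <;> omega
      have h4 := Int.eq_zero_of_abs_lt_dvd hdvd h3
      omega
  rw [Finset.sum_congr rfl h2, Finset.sum_ite_eq' _ _ _, if_pos hb, ← mul_assoc,
    inv_mul_cancel₀ hM, one_mul]

/-- The normalised constant term `κ_w = M⁻¹ ∑_c ŵ₀(c) κ_c`. -/
def kappaW (M : ℕ) (w : ZMod M → ZMod M → ℂ) (k : ℕ) : ℂ :=
  (M : ℂ)⁻¹ * ∑ c ∈ Finset.range M, hatG M (w 0) (c : ℤ) * ((kappaQ M (c : ℤ) k : ℚ) : ℂ)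

theorem constTerm_typeII (M : ℕ) (g : ZMod M → ℂ) (k : ℕ) :
    constTerm M (typeII M g) k = ∑' d : ℤ, g ((d : ℤ) : ZMod M) * (1 / ((0 : ℂ) + d) ^ (k + 1)) := by
  unfold constTerm
  refine tsum_congr fun d => ?_
  simp [typeII]

/-- **The constant term of a level-`M` Eisenstein series** in terms of Bernoulli polynomials. -/
theorem constTerm_eq (M : ℕ) [NeZero M] {k : ℕ} (hk : 1 ≤ k) (w : ZMod M → ZMod M → ℂ) :
    constTerm M w k = normC M k * kappaW M w k := by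
  have h1 : constTerm M w k =
      ∑' d : ℤ, ∑ c ∈ Finset.range M, ((M : ℂ)⁻¹ * hatG M (w 0) (c : ℤ)) *
        (gZ M (c : ℤ) ((d : ℤ) : ZMod M) * (1 / ((0 : ℂ) + d) ^ (k + 1))) := by
    unfold constTerm
    refine tsum_congr fun d => ?_
    rw [fourier_inversion M (w 0) ((d : ℤ) : ZMod M), Finset.mul_sum, Finset.sum_mul]
    refine Finset.sum_congr rfl fun c _ => ?_
    simp only [zero_add, one_div]
    ring
  rw [h1, Summable.tsum_finsetSum]
  · unfold kappaW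
    rw [Finset.mul_sum, Finset.mul_sum]
    refine Finset.sum_congr rfl fun c _ => ?_
    rw [tsum_mul_left, ← constTerm_typeII, constTerm_gZ M (c : ℤ) hk]
    unfold normC
    ring
  · intro c _
    exact (summable_row M hk (gZ M (c : ℤ)) 0).mul_left _

/-- The coefficients of the `X`-expansion of `G_w`, divided by the normalising constant, lie in
every subring containing `ζ_M`, `1/M`, the Bernoulli constants `κ_c` and the values of `w`. -/
theorem coefX_mem (M : ℕ) [NeZero M] {k : ℕ} (hk : 1 ≤ k) (w : ZMod M → ZMod M → ℂ)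
    (S : Subring ℂ) (hζ : ∀ a : ℤ, zetaPow M a ∈ S) (hM : (M : ℂ)⁻¹ ∈ S)
    (hκ : ∀ c : ℕ, ((kappaQ M (c : ℤ) k : ℚ) : ℂ) ∈ S) (hw : ∀ x y, w x y ∈ S) (n : ℕ) :
    (normC M k)⁻¹ * coefX M w k n ∈ S := by
  have hhat : ∀ (g : ZMod M → ℂ), (∀ b, g b ∈ S) → ∀ m : ℤ, hatG M g m ∈ S := by
    intro g hg m
    unfold hatG
    exact S.sum_mem fun b _ => S.mul_mem (hg _) (hζ _)
  unfold coefX
  by_cases hn : n = 0
  · rw [if_pos hn, constTerm_eq M hk, ← mul_assoc, inv_mul_cancel₀ (normC_ne_zero M k), one_mul]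
    unfold kappaW
    exact S.mul_mem hM (S.sum_mem fun c _ => S.mul_mem (hhat _ (hw 0) _) (hκ c))
  · rw [if_neg hn]
    have hMne : (M : ℂ) ≠ 0 := Nat.cast_ne_zero.mpr (NeZero.ne M)
    have e : (normC M k)⁻¹ * (lipConst M k * coefA M w k n) = (M : ℂ)⁻¹ * coefA M w k n := by
      have h0 := normC_ne_zero M k
      unfold normC at h0 ⊢
      have hl : lipConst M k ≠ 0 := left_ne_zero_of_mul h0
      field_simp
    rw [e]
    refine S.mul_mem hM ?_
    unfold coefA sigma2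
    refine S.sum_mem fun x _ => S.mul_mem (S.pow_mem (natCast_mem S _) _) (hhat _ ?_ _)
    intro b
    unfold symW
    exact S.add_mem (hw _ _) (S.mul_mem (S.pow_mem (S.neg_mem S.one_mem) _) (hw _ _))

/-! ### Type I: the division values -/

/-- The weight of type I: `w(x, y) = [x = a]`. -/
def typeI (M : ℕ) (a : ZMod M) : ZMod M → ZMod M → ℂ := fun x _ => if x = a then 1 else 0

/-- `C_{k+1} = (-2πi)^{k+1} / k!`. -/
def divC (k : ℕ) : ℂ := (-2 * π * Complex.I) ^ (k + 1) / (k.factorial : ℂ)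

theorem divC_ne_zero (k : ℕ) : divC k ≠ 0 := by
  unfold divC
  have h1 : (-2 * (π : ℂ) * Complex.I) ≠ 0 := by
    simp [Real.pi_ne_zero, Complex.I_ne_zero]
  exact div_ne_zero (pow_ne_zero _ h1) (Nat.cast_ne_zero.mpr (Nat.factorial_ne_zero k))

theorem lipConst_mul_pow (M : ℕ) [NeZero M] (k : ℕ) :
    lipConst M k * (M : ℂ) ^ (k + 1) = divC k := by
  have hM : (M : ℂ) ≠ 0 := Nat.cast_ne_zero.mpr (NeZero.ne M)
  unfold lipConst divC
  field_simp

theorem constTerm_typeI (M : ℕ) {a : ZMod M} (ha : a ≠ 0) (k : ℕ) :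
    constTerm M (typeI M a) k = 0 := by
  unfold constTerm
  have : ∀ d : ℤ, typeI M a 0 ((d : ℤ) : ZMod M) * ((d : ℂ) ^ (k + 1))⁻¹ = 0 := by
    intro d
    simp [typeI, Ne.symm ha]
  simp_rw [this]
  exact tsum_zero

/-- the symmetrised indicator -/
def symI (M : ℕ) (a : ZMod M) (k c : ℕ) : ℂ :=
  (if (c : ZMod M) = a then 1 else 0) + (-1) ^ (k + 1) * (if (c : ZMod M) = -a then 1 else 0)

theorem symW_typeI (M : ℕ) (a : ZMod M) (k c : ℕ) :
    symW M (typeI M a) k c = fun _ => symI M a k c := by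
  funext b
  unfold symW typeI symI
  simp only [neg_eq_iff_eq_neg]

theorem hatG_const (M : ℕ) [NeZero M] (v : ℂ) (m : ℤ) :
    hatG M (fun _ => v) m = if (M : ℤ) ∣ m then v * M else 0 := by
  unfold hatG
  rw [← Finset.mul_sum, sum_range_zetaPow]
  split_ifs <;> simp

theorem coefA_typeI_of_not_dvd (M : ℕ) [NeZero M] (a : ZMod M) (k : ℕ) {n : ℕ} (hn : ¬ M ∣ n) :
    coefA M (typeI M a) k n = 0 := by
  unfold coefA sigma2
  refine Finset.sum_eq_zero fun x hx => ?_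
  have hx' := Nat.mem_divisorsAntidiagonal.mp hx
  have hm : ¬ (M : ℤ) ∣ ((x.2 : ℕ) : ℤ) := by
    intro h0
    rw [Int.natCast_dvd_natCast] at h0
    exact hn (h0.trans ⟨x.1, by rw [mul_comm]; exact hx'.1.symm⟩)
  beta_reduce
  rw [symW_typeI, hatG_const, if_neg hm, mul_zero]

/-- the divisor sum `∑_{c m = n} m^k ([c = a] + (-1)^{k+1} [c = -a])` -/
def sigmaI (M : ℕ) (a : ZMod M) (k n : ℕ) : ℂ :=
  ∑ x ∈ n.divisorsAntidiagonal, (x.2 : ℂ) ^ k * symI M a k x.1

theorem sigmaI_zero (M : ℕ) (a : ZMod M) (k : ℕ) : sigmaI M a k 0 = 0 := by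
  simp [sigmaI]

theorem coefA_typeI_mul (M : ℕ) [NeZero M] (a : ZMod M) (k n : ℕ) :
    coefA M (typeI M a) k (M * n) = (M : ℂ) ^ (k + 1) * sigmaI M a k n := by
  have hM : M ≠ 0 := NeZero.ne M
  unfold coefA sigma2 sigmaI
  by_cases hn : n = 0
  · subst hn
    simp
  rw [Finset.mul_sum]
  symm
  refine Finset.sum_bij_ne_zero (fun x _ _ => (x.1, M * x.2)) ?_ ?_ ?_ ?_
  · intro x hx _
    have hx' := Nat.mem_divisorsAntidiagonal.mp hx
    rw [Nat.mem_divisorsAntidiagonal]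
    refine ⟨?_, Nat.mul_ne_zero hM hn⟩
    show x.1 * (M * x.2) = M * n
    rw [← hx'.1]
    ring
  · intro x hx _ y hy _ hxy
    have h1 : x.1 = y.1 := (Prod.mk.inj hxy).1
    have h2 : M * x.2 = M * y.2 := (Prod.mk.inj hxy).2
    exact Prod.ext h1 (Nat.eq_of_mul_eq_mul_left (Nat.pos_of_ne_zero hM) h2)
  · intro y hy hne
    have hy' := Nat.mem_divisorsAntidiagonal.mp hy
    have hm : (M : ℤ) ∣ ((y.2 : ℕ) : ℤ) := by
      by_contra hm
      apply hne
      beta_reduce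
      rw [symW_typeI, hatG_const, if_neg hm, mul_zero]
    rw [Int.natCast_dvd_natCast] at hm
    obtain ⟨m', hm'⟩ := hm
    refine ⟨(y.1, m'), ?_, ?_, ?_⟩
    · rw [Nat.mem_divisorsAntidiagonal]
      refine ⟨?_, hn⟩
      have h1 : M * (y.1 * m') = M * n := by
        rw [← hy'.1, hm']
        ring
      exact Nat.eq_of_mul_eq_mul_left (Nat.pos_of_ne_zero hM) h1
    · intro h0
      apply hne
      beta_reduce
      rw [symW_typeI, hatG_const, if_pos (by rw [Int.natCast_dvd_natCast]; exact ⟨m', hm'⟩)]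
      have h0' : (M : ℂ) ^ (k + 1) * ((m' : ℂ) ^ k * symI M a k y.1) = 0 := h0
      have hMC : (M : ℂ) ^ (k + 1) ≠ 0 := pow_ne_zero _ (Nat.cast_ne_zero.mpr hM)
      rcases mul_eq_zero.mp ((mul_eq_zero.mp h0').resolve_left hMC) with h | h
      · have : m' = 0 := by
          by_contra hne'
          exact (pow_ne_zero k (Nat.cast_ne_zero.mpr hne')) h
        subst this
        simp [hm'] at hy'
        omega
      · rw [h]
        simp
    · exact Prod.ext rfl hm'.symm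
  · intro x hx _
    have hd : (M : ℤ) ∣ (((M * x.2 : ℕ)) : ℤ) := by
      rw [Int.natCast_dvd_natCast]
      exact ⟨x.2, rfl⟩
    show (M : ℂ) ^ (k + 1) * ((x.2 : ℂ) ^ k * symI M a k x.1) =
      (((M * x.2 : ℕ)) : ℂ) ^ k * hatG M (symW M (typeI M a) k x.1) ((M * x.2 : ℕ) : ℤ)
    rw [symW_typeI, hatG_const, if_pos hd]
    push_cast
    ring

theorem sigmaI_eq_divCoeff (M : ℕ) (a : ZMod M) (k n : ℕ) :
    sigmaI M a k n = ((F1.divCoeff M a (k + 1) n : ℤ) : ℂ) := by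
  unfold sigmaI F1.divCoeff symI
  rw [Nat.sum_divisorsAntidiagonal (f := fun c m => (m : ℂ) ^ k *
    ((if (c : ZMod M) = a then 1 else 0) + (-1) ^ (k + 1) * (if (c : ZMod M) = -a then 1 else 0)))]
  rw [Int.cast_sum]
  refine Finset.sum_congr rfl fun m _ => ?_
  have e : (((((n / m : ℕ) : ℤ)) : ℤ) : ℂ) = ((n / m : ℕ) : ℂ) := Int.cast_natCast _
  simp only [Nat.add_sub_cancel]
  rw [← e]
  generalize (((n / m : ℕ) : ℤ)) = t
  split_ifs <;> simp <;> ring

theorem coefX_typeI_mul (M : ℕ) [NeZero M] {a : ZMod M} (ha : a ≠ 0) (k n : ℕ) :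
    coefX M (typeI M a) k (M * n) = divC k * ((F1.divCoeff M a (k + 1) n : ℤ) : ℂ) := by
  unfold coefX
  by_cases hn : n = 0
  · subst hn
    simp [constTerm_typeI M ha]
  · rw [if_neg (Nat.mul_ne_zero (NeZero.ne M) hn), coefA_typeI_mul, ← mul_assoc,
      lipConst_mul_pow, sigmaI_eq_divCoeff]

theorem coefX_typeI_of_not_dvd (M : ℕ) [NeZero M] (a : ZMod M) (k : ℕ) {n : ℕ}
    (hn : ¬ M ∣ n) : coefX M (typeI M a) k n = 0 := by
  unfold coefX
  have h0 : n ≠ 0 := fun h => hn (h ▸ dvd_zero M)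
  rw [if_neg h0, coefA_typeI_of_not_dvd M a k hn, mul_zero]

/-- **Expansion in `q`** of the Eisenstein series of type I on `Γ₁(M)` (weight `k + 1 ≥ 3`):
`G_{[v₀ = a]} = C_{k+1} ∑ c_{a,k+1}(n) qⁿ`. -/
theorem hasSum_typeI (M : ℕ) [NeZero M] {k : ℕ} (hk : 2 ≤ k) {a : ZMod M} (ha : a ≠ 0) (z : ℍ) :
    HasSum (fun n : ℕ => (divC k * ((F1.divCoeff M a (k + 1) n : ℤ) : ℂ)) • 𝕢 1 (z : ℂ) ^ n)
      (H332.wEis (perWeight M (typeI M a)) ((k + 1 : ℕ) : ℤ) z) := by
  have H := hasSum_wEis_periodic M hk (typeI M a) z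
  have hinj : Function.Injective (fun n : ℕ => M * n) := fun a b hab =>
    Nat.eq_of_mul_eq_mul_left (Nat.pos_of_ne_zero (NeZero.ne M)) hab
  rw [← hinj.hasSum_iff] at H
  · convert H using 1
    funext n
    simp only [Function.comp_apply]
    rw [coefX_typeI_mul M ha, qParam_M_pow]
  · intro n hn
    have hnd : ¬ M ∣ n := by
      rintro ⟨m, rfl⟩
      exact hn ⟨m, rfl⟩
    rw [coefX_typeI_of_not_dvd M a k hnd, zero_smul]

/-- **`q`-expansion coefficients** of the Eisenstein series of type I on `Γ₁(M)`. -/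
theorem qExpansion_typeI (M : ℕ) [NeZero M] {k : ℕ} (hk : 2 ≤ k) {a : ZMod M} (ha : a ≠ 0)
    (n : ℕ) :
    (qExpansion 1 (H332.wEis (perWeight M (typeI M a)) ((k + 1 : ℕ) : ℤ))).coeff n =
      divC k * ((F1.divCoeff M a (k + 1) n : ℤ) : ℂ) := by
  have hk3 : (3 : ℤ) ≤ ((k + 1 : ℕ) : ℤ) := by
    push_cast
    omega
  exact Fermat.Agent.S22T.qExpansion_coeff_of_hasSum one_pos (hasSum_typeI M hk ha)
    (perWeight_mdiff M (typeI M a) hk3) n

/-! ### The avatar of `P_a` -/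

/-- **The analytic avatar of the division value `P_a`**: `C₁₂⁻¹ · G_{[v₀ = a]} / Δ`. -/
def pFun (M : ℕ) (a : ZMod M) (τ : ℍ) : ℂ := (divC 11)⁻¹ * yW M (typeI M a) τ

theorem pFun_eq (M : ℕ) (a : ZMod M) :
    pFun M a = (fun _ => (divC 11)⁻¹) * yW M (typeI M a) := rfl

theorem infPExp_typeI (M : ℕ) [NeZero M] {k : ℕ} (hk : 2 ≤ k) {a : ZMod M} (ha : a ≠ 0) :
    InfPExp 1 (fun τ => (divC k)⁻¹ * H332.wEis (perWeight M (typeI M a)) ((k + 1 : ℕ) : ℤ) τ)
      ((F1.divSeries M a (k + 1)).map (Int.castRingHom ℂ)) := by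
  intro τ
  have H := (hasSum_typeI M hk ha τ).mul_left (divC k)⁻¹
  have e : (fun n : ℕ => PowerSeries.coeff n
        ((F1.divSeries M a (k + 1)).map (Int.castRingHom ℂ)) * infZ 1 τ ^ n) =
      fun n : ℕ => (divC k)⁻¹ *
        ((divC k * ((F1.divCoeff M a (k + 1) n : ℤ) : ℂ)) • 𝕢 1 (τ : ℂ) ^ n) := by
    funext n
    have hC := divC_ne_zero k
    simp only [PowerSeries.coeff_map, F1.coeff_divSeries, infZ, smul_eq_mul, eq_intCast,
      Nat.cast_one]
    field_simp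
  rw [e]
  exact H

/-- **The `q`-expansion of the avatar `pFun M a` is the division value `P_a`.** -/
theorem infExp_pFun (M : ℕ) [NeZero M] {a : ZMod M} (ha : a ≠ 0) :
    InfExp 1 (pFun M a) (F1.divGenC ℂ M a) := by
  have h1 := (infPExp_typeI M (k := 11) (by norm_num) ha).infExp 0
  have h2 := h1.mul infExp_one_deltaInv
  have e : F1.divGenC ℂ M a =
      (single (0 : ℤ) (1 : ℂ) *
        ofPowerSeries ℤ ℂ ((F1.divSeries M a (11 + 1)).map (Int.castRingHom ℂ))) *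
      H565.deltaInvSeriesC := by
    have hΔ : H565.deltaInvSeriesC = single (-1 : ℤ) (1 : ℂ) *
        ofPowerSeries ℤ ℂ (ModularCurve.dedekindEtaUnitInv.map (Int.castRingHom ℂ)) := rfl
    rw [show (single (0 : ℤ) (1 : ℂ)) = 1 from rfl, one_mul, hΔ,
      F1.divGenC, F1.divNum, map_mul, map_mul]
    ring
  rw [e]
  refine h2.congr fun τ => ?_
  simp only [zpow_zero, one_mul, pFun, yW]
  ring

theorem mdiff_pFun (M : ℕ) [NeZero M] (a : ZMod M) : MDiff (pFun M a) := by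
  have h := mdiff_yW M (typeI M a)
  exact (mdifferentiable_const (c := (divC 11)⁻¹)).mul h

theorem pFun_mem_holN (M : ℕ) [NeZero M] (a : ZMod M) : pFun M a ∈ holN M := by
  rw [pFun_eq]
  exact (holN M).mul_mem (const_mem_holN M _) (yW_mem_holN M (typeI M a))

/-- The action of `Γ₀(M)` on the weights of type I. -/
theorem actW_typeI_Gamma0 (M : ℕ) [NeZero M] (a : ZMod M) (γ : SL(2, ℤ)) (hγ : γ ∈ Gamma0 M) :
    actW M γ (typeI M a) = typeI M (a * ((γ 0 0 : ℤ) : ZMod M)) := by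
  have h10 : (((γ 1 0 : ℤ)) : ZMod M) = 0 := by
    rw [Gamma0_mem] at hγ
    exact hγ
  have hdet : ((γ 0 0 : ℤ) : ZMod M) * ((γ 1 1 : ℤ) : ZMod M) = 1 := by
    have h := Matrix.SpecialLinearGroup.det_coe γ
    rw [Matrix.det_fin_two] at h
    have h' := congrArg (fun z : ℤ => (z : ZMod M)) h
    simp only [Int.cast_sub, Int.cast_mul, Int.cast_one] at h'
    rw [h10, mul_zero, sub_zero] at h'
    exact h'
  funext x y
  unfold actW typeI
  have e00 : ((γ⁻¹ : SL(2, ℤ)) 0 0 : ℤ) = γ 1 1 := by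
    rw [Matrix.SpecialLinearGroup.SL2_inv_expl]; rfl
  have e10 : ((γ⁻¹ : SL(2, ℤ)) 1 0 : ℤ) = -γ 1 0 := by
    rw [Matrix.SpecialLinearGroup.SL2_inv_expl]; rfl
  rw [e00, e10]
  simp only [Int.cast_neg, h10, neg_zero, mul_zero, add_zero]
  congr 1
  apply propext
  constructor
  · intro h
    rw [← h, mul_assoc, mul_comm ((γ 1 1 : ℤ) : ZMod M), hdet, mul_one]
  · intro h
    rw [h, mul_assoc, hdet, mul_one]

/-- **Diamond law**: `P_a ∘ γ = P_{a γ₀₀}` for `γ ∈ Γ₀(M)`. -/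
theorem compSL_pFun (M : ℕ) [NeZero M] (a : ZMod M) (γ : SL(2, ℤ)) (hγ : γ ∈ Gamma0 M) :
    compSL γ (pFun M a) = pFun M (a * ((γ 0 0 : ℤ) : ZMod M)) := by
  funext τ
  have h := congrFun (compSL_yW M (typeI M a) γ) τ
  rw [actW_typeI_Gamma0 M a γ hγ] at h
  simp only [compSL_apply] at h
  simp only [compSL_apply, pFun, h]

/-- `pFun M a` is invariant under `Γ₁(M)`. -/
theorem pFun_smul_Gamma1 (M : ℕ) [NeZero M] (a : ZMod M) (γ : SL(2, ℤ)) (hγ : γ ∈ Gamma1 M)
    (τ : ℍ) : pFun M a (γ • τ) = pFun M a τ := by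
  have h0 : γ ∈ Gamma0 M := Gamma1_in_Gamma0 M hγ
  have h := congrFun (compSL_pFun M a γ h0) τ
  rw [compSL_apply] at h
  rw [h]
  have h00 : ((γ 0 0 : ℤ) : ZMod M) = 1 := ((Gamma1_mem M γ).mp hγ).1
  rw [h00, mul_one]

/-- `P_{-a} = P_a`. -/
theorem pFun_neg (M : ℕ) [NeZero M] (a : ZMod M) : pFun M (-a) = pFun M a := by
  have hmem : (-1 : SL(2, ℤ)) ∈ Gamma0 M := by
    rw [Gamma0_mem]
    simp
  have h := compSL_pFun M a (-1) hmem
  have e : compSL (-1 : SL(2, ℤ)) (pFun M a) = pFun M a := by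
    funext τ
    simp only [compSL_apply]
    congr 1
    exact UpperHalfPlane.ext (by simp)
  rw [e] at h
  rw [h]
  congr 1
  simp

end Fermat.Agent.S48.H76
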