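import Fermat.Agent.S48.F1.Defs

/-!
# S48 / Tower A1, piece A1-FF (helper76): leading terms and distinctness of the division values

For `a ≠ 0` in `ZMod M` put `a₀ = lead M a = min(a.val, (-a).val)`.  Then (weight `k` even)

* `divCoeff_eq_zero_of_lt : n < a₀ → F1.divCoeff M a k n = 0`;
* `divCoeff_lead : F1.divCoeff M a k a₀ = if a = -a then 2 else 1`;
* `coeff_divGenC_of_lt`, `coeff_divGenC_lead`: `P_a = ε q^{a₀ - 1} + …`, `ε ∈ {1, 2}`;
* `divGenC_eq_iff`: `P_a = P_b ↔ a = b ∨ a = -b` (over any ring in which the leading coefficients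
  are non-zero, e.g. `2 ≠ 0` or `M` odd);
* `divGen_neg : P_{-a} = P_a`.

Pure `q`-series combinatorics (imports `F1/Defs` only).
-/

set_option autoImplicit false

open HahnSeries ModularCurve

noncomputable section

namespace Fermat.Agent.S48.H76

open Fermat.Agent.S48

/-- `a₀ = min(a.val, (-a).val)`: the order of `∑ c_a(n) qⁿ`. -/
def lead (M : ℕ) (a : ZMod M) : ℕ := min a.val (-a).val

theorem lead_neg (M : ℕ) (a : ZMod M) : lead M (-a) = lead M a := by
  simp [lead, min_comm]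

theorem lead_pos (M : ℕ) [NeZero M] {a : ZMod M} (ha : a ≠ 0) : 0 < lead M a := by
  have h1 : a.val ≠ 0 := fun h => ha ((ZMod.val_eq_zero a).mp h)
  have h2 : (-a).val ≠ 0 := fun h => ha (neg_eq_zero.mp ((ZMod.val_eq_zero (-a)).mp h))
  unfold lead
  exact lt_min (Nat.pos_of_ne_zero h1) (Nat.pos_of_ne_zero h2)

theorem val_le_of_natCast_eq (M : ℕ) [NeZero M] {m : ℕ} {a : ZMod M} (h : (m : ZMod M) = a) :
    a.val ≤ m := by
  rw [← h, ZMod.val_natCast]
  exact Nat.mod_le m M

theorem lead_le_of_natCast_eq (M : ℕ) [NeZero M] {m : ℕ} {a : ZMod M} (h : (m : ZMod M) = a) :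
    lead M a ≤ m :=
  (min_le_left _ _).trans (val_le_of_natCast_eq M h)

theorem lead_le_of_natCast_eq_neg (M : ℕ) [NeZero M] {m : ℕ} {a : ZMod M}
    (h : (m : ZMod M) = -a) : lead M a ≤ m :=
  (min_le_right _ _).trans (val_le_of_natCast_eq M h)

theorem natCast_lead (M : ℕ) [NeZero M] (a : ZMod M) :
    ((lead M a : ℕ) : ZMod M) = a ∨ ((lead M a : ℕ) : ZMod M) = -a := by
  unfold lead
  rcases min_choice a.val (-a).val with h | h
  · left
    rw [h, ZMod.natCast_zmod_val]
  · right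
    rw [h, ZMod.natCast_zmod_val]

/-- `c_a(n) = 0` for `n < a₀`. -/
theorem divCoeff_eq_zero_of_lt (M : ℕ) [NeZero M] (a : ZMod M) (k : ℕ) {n : ℕ}
    (hn : n < lead M a) : F1.divCoeff M a k n = 0 := by
  unfold F1.divCoeff
  refine Finset.sum_eq_zero fun m hm => ?_
  have hmn : m ≤ n := Nat.divisor_le hm
  have h1 : ¬ ((m : ℕ) : ZMod M) = a := fun h =>
    absurd (lead_le_of_natCast_eq M h) (by omega)
  have h2 : ¬ ((m : ℕ) : ZMod M) = -a := fun h =>
    absurd (lead_le_of_natCast_eq_neg M h) (by omega)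
  rw [if_neg h1, if_neg h2, add_zero]

/-- The leading coefficient: `c_a(a₀) = 1`, or `2` if `2a = 0` (weight `k` even). -/
theorem divCoeff_lead (M : ℕ) [NeZero M] {a : ZMod M} (ha : a ≠ 0) {k : ℕ} (hk : Even k) :
    F1.divCoeff M a k (lead M a) = if a = -a then 2 else 1 := by
  have hpos := lead_pos M ha
  unfold F1.divCoeff
  rw [Finset.sum_eq_single (lead M a)]
  · rw [Nat.div_self hpos, Nat.cast_one, one_pow, hk.neg_one_pow, mul_one]
    by_cases haa : a = -a
    · rw [if_pos haa]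
      have h := natCast_lead M a
      have h1 : ((lead M a : ℕ) : ZMod M) = a := by
        rcases h with h | h
        · exact h
        · rw [h, ← haa]
      have h2 : ((lead M a : ℕ) : ZMod M) = -a := by rw [h1]; exact haa
      rw [if_pos h1, if_pos h2]
      norm_num
    · rw [if_neg haa]
      rcases natCast_lead M a with h | h
      · have h2 : ¬ ((lead M a : ℕ) : ZMod M) = -a := fun h2 => haa (h.symm.trans h2)
        rw [if_pos h, if_neg h2, add_zero]
      · have h2 : ¬ ((lead M a : ℕ) : ZMod M) = a := fun h2 => haa (h2.symm.trans h)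
        rw [if_neg h2, if_pos h, zero_add]
  · intro m hm hne
    have hmn : m ≤ lead M a := Nat.divisor_le hm
    have hlt : m < lead M a := lt_of_le_of_ne hmn hne
    have h1 : ¬ ((m : ℕ) : ZMod M) = a := fun h =>
      absurd (lead_le_of_natCast_eq M h) (by omega)
    have h2 : ¬ ((m : ℕ) : ZMod M) = -a := fun h =>
      absurd (lead_le_of_natCast_eq_neg M h) (by omega)
    rw [if_neg h1, if_neg h2, add_zero]
  · intro h
    exact absurd (Nat.mem_divisors_self _ (Nat.pos_iff_ne_zero.mp hpos)) h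

theorem divCoeff_lead_pos (M : ℕ) [NeZero M] {a : ZMod M} (ha : a ≠ 0) {k : ℕ} (hk : Even k) :
    0 < F1.divCoeff M a k (lead M a) := by
  rw [divCoeff_lead M ha hk]
  split_ifs <;> norm_num

/-- `c_{-a} = c_a` in even weight. -/
theorem divCoeff_neg (M : ℕ) (a : ZMod M) {k : ℕ} (hk : Even k) (n : ℕ) :
    F1.divCoeff M (-a) k n = F1.divCoeff M a k n := by
  unfold F1.divCoeff
  refine Finset.sum_congr rfl fun m _ => ?_
  rw [neg_neg, hk.neg_one_pow, one_mul, add_comm]

theorem divSeries_neg (M : ℕ) (a : ZMod M) {k : ℕ} (hk : Even k) :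
    F1.divSeries M (-a) k = F1.divSeries M a k := by
  ext n
  rw [F1.coeff_divSeries, F1.coeff_divSeries, divCoeff_neg M a hk]

/-- `P_{-a} = P_a`. -/
theorem divGenC_neg (R : Type*) [CommRing R] (M : ℕ) (a : ZMod M) :
    F1.divGenC R M (-a) = F1.divGenC R M a := by
  unfold F1.divGenC F1.divNum
  rw [divSeries_neg M a (by decide)]

theorem divGen_neg (M : ℕ) (a : ZMod M) : F1.divGen M (-a) = F1.divGen M a :=
  divGenC_neg ℚ M a

/-! ### Coefficients of `q · P_a` -/

theorem coeff_divNum_of_lt (M : ℕ) [NeZero M] (a : ZMod M) {n : ℕ} (hn : n < lead M a) :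
    PowerSeries.coeff n (F1.divNum M a) = 0 := by
  unfold F1.divNum
  rw [PowerSeries.coeff_mul]
  refine Finset.sum_eq_zero fun x hx => ?_
  have hsum : x.1 + x.2 = n := Finset.HasAntidiagonal.mem_antidiagonal.mp hx
  have hx' : x.1 ≤ n := by omega
  rw [F1.coeff_divSeries, divCoeff_eq_zero_of_lt M a 12 (lt_of_le_of_lt hx' hn), zero_mul]

theorem coeff_divNum_lead (M : ℕ) [NeZero M] (a : ZMod M) :
    PowerSeries.coeff (lead M a) (F1.divNum M a) = F1.divCoeff M a 12 (lead M a) := by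
  unfold F1.divNum
  rw [PowerSeries.coeff_mul, Finset.sum_eq_single (lead M a, 0)]
  · rw [F1.coeff_divSeries, PowerSeries.coeff_zero_eq_constantCoeff_apply,
      constantCoeff_dedekindEtaUnitInv, mul_one]
  · intro x hx hne
    have hsum : x.1 + x.2 = lead M a := Finset.HasAntidiagonal.mem_antidiagonal.mp hx
    have hlt : x.1 < lead M a := by
      rcases Nat.lt_or_ge x.1 (lead M a) with h | h
      · exact h
      · exfalso
        apply hne
        have h1 : x.1 = lead M a := by omega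
        have h2 : x.2 = 0 := by omega
        exact Prod.ext h1 h2
    rw [F1.coeff_divSeries, divCoeff_eq_zero_of_lt M a 12 hlt, zero_mul]
  · intro h
    exact absurd (Finset.HasAntidiagonal.mem_antidiagonal.mpr (add_zero _)) h

/-- `P_a = ∑_{n ≥ 0} (coefficient `n` of `q P_a`) q^{n-1}`. -/
theorem coeff_divGenC (R : Type*) [CommRing R] (M : ℕ) (a : ZMod M) (n : ℕ) :
    (F1.divGenC R M a).coeff ((n : ℤ) - 1) =
      ((PowerSeries.coeff n (F1.divNum M a) : ℤ) : R) := by
  unfold F1.divGenC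
  rw [HahnSeries.coeff_single_mul, one_mul,
    show ((n : ℤ) - 1 - -1) = (n : ℤ) by ring, HahnSeries.ofPowerSeries_apply_coeff,
    PowerSeries.coeff_map]
  rfl

theorem coeff_divGenC_of_lt (R : Type*) [CommRing R] (M : ℕ) [NeZero M] (a : ZMod M) {n : ℕ}
    (hn : n < lead M a) : (F1.divGenC R M a).coeff ((n : ℤ) - 1) = 0 := by
  rw [coeff_divGenC, coeff_divNum_of_lt M a hn, Int.cast_zero]

/-- The leading coefficient of `P_a` (at `q^{a₀ - 1}`) is `1`, or `2` if `2a = 0`. -/
theorem coeff_divGenC_lead (R : Type*) [CommRing R] (M : ℕ) [NeZero M] {a : ZMod M}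
    (ha : a ≠ 0) :
    (F1.divGenC R M a).coeff ((lead M a : ℤ) - 1) = if a = -a then 2 else 1 := by
  rw [coeff_divGenC, coeff_divNum_lead, divCoeff_lead M ha (by decide)]
  split_ifs <;> simp

/-- The condition under which the leading coefficients of all `P_a` are non-zero in `R`. -/
def LeadOK (R : Type*) [CommRing R] (M : ℕ) : Prop :=
  (1 : R) ≠ 0 ∧ ((2 : R) ≠ 0 ∨ Odd M)

theorem leadOK_of_charZero (R : Type*) [CommRing R] [CharZero R] (M : ℕ) : LeadOK R M :=
  ⟨one_ne_zero, Or.inl two_ne_zero⟩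

theorem ne_neg_of_odd (M : ℕ) [NeZero M] (hM : Odd M) {a : ZMod M} (ha : a ≠ 0) : a ≠ -a := by
  intro h
  have h2 : (2 : ZMod M) * a = 0 := by
    rw [two_mul]
    nth_rewrite 1 [h]
    exact neg_add_cancel a
  have hu : IsUnit (((2 : ℕ) : ZMod M)) :=
    (ZMod.isUnit_iff_coprime 2 M).mpr (Nat.coprime_two_left.mpr hM)
  rw [Nat.cast_ofNat] at hu
  exact ha ((hu.mul_right_eq_zero).mp h2)

theorem leadOK_of_odd (R : Type*) [CommRing R] [Nontrivial R] {M : ℕ} (hM : Odd M) :
    LeadOK R M :=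
  ⟨one_ne_zero, Or.inr hM⟩

theorem coeff_divGenC_lead_ne_zero (R : Type*) [CommRing R] (M : ℕ) [NeZero M]
    (hR : LeadOK R M) {a : ZMod M} (ha : a ≠ 0) :
    (F1.divGenC R M a).coeff ((lead M a : ℤ) - 1) ≠ 0 := by
  rw [coeff_divGenC_lead R M ha]
  by_cases haa : a = -a
  · rw [if_pos haa]
    rcases hR.2 with h | h
    · exact h
    · exact absurd haa (ne_neg_of_odd M h ha)
  · rw [if_neg haa]
    exact hR.1

theorem divGenC_ne_zero (R : Type*) [CommRing R] (M : ℕ) [NeZero M]
    (hR : LeadOK R M) {a : ZMod M} (ha : a ≠ 0) : F1.divGenC R M a ≠ 0 := by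
  intro h
  have h1 := coeff_divGenC_lead_ne_zero R M hR ha
  rw [h] at h1
  exact h1 rfl

theorem ofPowerSeries_coeff_of_neg (R : Type*) [CommRing R] (f : PowerSeries R) {z : ℤ}
    (hz : z < 0) : (HahnSeries.ofPowerSeries ℤ R f).coeff z = 0 := by
  rw [HahnSeries.ofPowerSeries_apply]
  apply HahnSeries.embDomain_of_notMem_range
  rintro ⟨n, hn⟩
  have hn' : (n : ℤ) = z := hn
  omega

/-- all coefficients of `P_a` below `q^{a₀ - 1}` vanish -/
theorem coeff_divGenC_of_lt_int (R : Type*) [CommRing R] (M : ℕ) [NeZero M] (a : ZMod M)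
    {z : ℤ} (hz : z < (lead M a : ℤ) - 1) : (F1.divGenC R M a).coeff z = 0 := by
  rcases lt_or_ge z (-1) with h | h
  · unfold F1.divGenC
    rw [HahnSeries.coeff_single_mul, one_mul]
    exact ofPowerSeries_coeff_of_neg R _ (by omega)
  · obtain ⟨n, hn⟩ : ∃ n : ℕ, z = (n : ℤ) - 1 := ⟨(z + 1).toNat, by omega⟩
    rw [hn]
    exact coeff_divGenC_of_lt R M a (by omega)

/-- **The order of `P_a` is `a₀ - 1`.** -/
theorem order_divGenC (R : Type*) [CommRing R] (M : ℕ) [NeZero M]
    (hR : LeadOK R M) {a : ZMod M} (ha : a ≠ 0) :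
    (F1.divGenC R M a).order = (lead M a : ℤ) - 1 := by
  refine le_antisymm (HahnSeries.order_le_of_coeff_ne_zero
    (coeff_divGenC_lead_ne_zero R M hR ha)) ?_
  by_contra hlt
  rw [not_le] at hlt
  exact divGenC_ne_zero R M hR ha
    (HahnSeries.coeff_order_eq_zero.mp (coeff_divGenC_of_lt_int R M a hlt))

theorem lead_eq_of_divGenC_eq (R : Type*) [CommRing R] (M : ℕ) [NeZero M]
    (hR : LeadOK R M) {a b : ZMod M} (ha : a ≠ 0) (hb : b ≠ 0)
    (h : F1.divGenC R M a = F1.divGenC R M b) : lead M a = lead M b := by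
  have h1 := order_divGenC R M hR ha
  rw [h, order_divGenC R M hR hb] at h1
  omega

theorem eq_or_eq_neg_of_lead_eq (M : ℕ) [NeZero M] {a b : ZMod M}
    (h : lead M a = lead M b) : a = b ∨ a = -b := by
  unfold lead at h
  rcases min_choice a.val (-a).val with h1 | h1 <;>
    rcases min_choice b.val (-b).val with h2 | h2 <;> rw [h1, h2] at h
  · exact Or.inl (ZMod.val_injective M h)
  · exact Or.inr (ZMod.val_injective M h)
  · exact Or.inr (neg_eq_iff_eq_neg.mp (ZMod.val_injective M h))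
  · exact Or.inl (neg_injective (ZMod.val_injective M h))

/-- **Distinctness of the division values**: `P_a = P_b ↔ a = ± b`. -/
theorem divGenC_eq_iff (R : Type*) [CommRing R] (M : ℕ) [NeZero M]
    (hR : LeadOK R M) {a b : ZMod M} (ha : a ≠ 0) (hb : b ≠ 0) :
    F1.divGenC R M a = F1.divGenC R M b ↔ a = b ∨ a = -b := by
  constructor
  · intro h
    exact eq_or_eq_neg_of_lead_eq M (lead_eq_of_divGenC_eq R M hR ha hb h)
  · rintro (h | h)
    · rw [h]
    · rw [h, divGenC_neg]

theorem divGen_eq_iff (M : ℕ) [NeZero M] {a b : ZMod M} (ha : a ≠ 0) (hb : b ≠ 0) :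
    F1.divGen M a = F1.divGen M b ↔ a = b ∨ a = -b :=
  divGenC_eq_iff ℚ M (leadOK_of_charZero ℚ M) ha hb

end Fermat.Agent.S48.H76
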