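import Fermat.Agent.S48.H76.Avatar
import Fermat.Agent.S48.H76.PDist
import Fermat.Agent.S48.H856.IgusaConc

/-!
# S48 / Tower A1 / IGUSA1, node I-GEN (helper76): the division values in `H828.iactRing`

For a field `E` with `ι : E →+* ℂ` containing `ζ_M` (`hζ : ι ζ = exp(2πi/M)`):

* `iactP ζ hζ a : H828.iactRing ι M` : the avatar `pFun M a` of the division value `P_a`;
* `iactExp_iactP` : its `X`-expansion is `qExpand E M (F1.divGenC E M a)` (`a ≠ 0`);
* `iactComp_iactP` : `P_a ∘ γ = P_{a γ₀₀}` for `γ ∈ Γ₀(M)` (and `smul_iactP`);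
* `isBd_smul_iactP` : every `SL₂(ℤ)`-translate of `P_a` has an expansion with bounded
  denominators (explicit denominator `M^12 · ∏_c den κ_c`), for every discrete valuation subring
  `𝒪` of `E`; hence `iactP_mem_iactBd`.
-/

set_option autoImplicit false
set_option linter.unusedSectionVars false

open UpperHalfPlane EisensteinSeries ModularForm Filter Topology Complex CongruenceSubgroup
open HahnSeries ModularCurve
open scoped Matrix MatrixGroups Manifold Real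

noncomputable section

namespace Fermat.Agent.S48.H76

open Fermat.Agent.S29 Fermat.Agent.S24 Fermat.Agent.S24.H997 Fermat.Agent.S24.H624
open Fermat.Agent.S28 Fermat.Agent.S28.H748

local notation "𝕢" => Function.Periodic.qParam
local notation "Δ" => ModularForm.discriminant

/-! ### Bounded denominators of the coefficients -/

/-- A common denominator of the Bernoulli constants `κ_c`, `0 ≤ c < M`. -/
def kDen (M k : ℕ) : ℕ := ∏ c ∈ Finset.range M, (kappaQ M (c : ℤ) k).den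

theorem kDen_ne_zero (M k : ℕ) : kDen M k ≠ 0 :=
  Finset.prod_ne_zero_iff.mpr fun _ _ => Rat.den_ne_zero _

theorem kDen_mul_kappaQ (M k : ℕ) {c : ℕ} (hc : c ∈ Finset.range M) :
    ∃ z : ℤ, ((kDen M k : ℕ) : ℚ) * kappaQ M (c : ℤ) k = (z : ℚ) := by
  obtain ⟨r, hr⟩ : (kappaQ M (c : ℤ) k).den ∣ kDen M k :=
    Finset.dvd_prod_of_mem (fun c : ℕ => (kappaQ M (c : ℤ) k).den) hc
  refine ⟨(r : ℤ) * (kappaQ M (c : ℤ) k).num, ?_⟩
  rw [hr]
  push_cast
  have h := Rat.den_mul_eq_num (kappaQ M (c : ℤ) k)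
  rw [mul_comm ((kappaQ M (c : ℤ) k).den : ℚ) (r : ℚ), mul_assoc, h]

/-- The denominator of the expansions of the translates of the division values. -/
def bdDen (M k : ℕ) : ℕ := M ^ (k + 1) * kDen M k

theorem bdDen_ne_zero (M : ℕ) [NeZero M] (k : ℕ) : bdDen M k ≠ 0 :=
  Nat.mul_ne_zero (pow_ne_zero _ (NeZero.ne M)) (kDen_ne_zero M k)

theorem hatG_mem (M : ℕ) (S : Subring ℂ) (hζ : ∀ a : ℤ, zetaPow M a ∈ S) (g : ZMod M → ℂ)
    (hg : ∀ b, g b ∈ S) (m : ℤ) : hatG M g m ∈ S := by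
  unfold hatG
  exact S.sum_mem fun b _ => S.mul_mem (hg _) (hζ _)

/-- **Bounded denominators**: `bdDen · C_{k+1}⁻¹ · (n-th coefficient of G_w)` lies in every
subring containing the `M`-th roots of unity and the values of `w`. -/
theorem coefX_bd_mem (M : ℕ) [NeZero M] {k : ℕ} (hk : 1 ≤ k) (w : ZMod M → ZMod M → ℂ)
    (S : Subring ℂ) (hζ : ∀ a : ℤ, zetaPow M a ∈ S) (hw : ∀ x y, w x y ∈ S) (n : ℕ) :
    ((bdDen M k : ℕ) : ℂ) * ((divC k)⁻¹ * coefX M w k n) ∈ S := by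
  have hMne : (M : ℂ) ≠ 0 := Nat.cast_ne_zero.mpr (NeZero.ne M)
  have hdiv : divC k = lipConst M k * (M : ℂ) ^ (k + 1) := (lipConst_mul_pow M k).symm
  have hl : lipConst M k ≠ 0 := by
    intro h
    apply divC_ne_zero k
    rw [hdiv, h, zero_mul]
  unfold coefX bdDen
  by_cases hn : n = 0
  · rw [if_pos hn, constTerm_eq M hk]
    have e : (((M ^ (k + 1) * kDen M k : ℕ)) : ℂ) *
        ((divC k)⁻¹ * (normC M k * kappaW M w k)) =
        ∑ c ∈ Finset.range M, hatG M (w 0) (c : ℤ) *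
          (((kDen M k : ℕ) : ℂ) * ((kappaQ M (c : ℤ) k : ℚ) : ℂ)) := by
      unfold kappaW normC
      rw [hdiv, Finset.mul_sum, Finset.mul_sum, Finset.mul_sum, Finset.mul_sum]
      refine Finset.sum_congr rfl fun c _ => ?_
      push_cast
      field_simp
    rw [e]
    refine S.sum_mem fun c hc => S.mul_mem (hatG_mem M S hζ _ (hw 0) _) ?_
    obtain ⟨z, hz⟩ := kDen_mul_kappaQ M k hc
    have hz' : ((kDen M k : ℕ) : ℂ) * ((kappaQ M (c : ℤ) k : ℚ) : ℂ) = (z : ℂ) := by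
      have := congrArg (fun q : ℚ => (q : ℂ)) hz
      simpa using this
    rw [hz']
    exact intCast_mem S z
  · rw [if_neg hn]
    have e : (((M ^ (k + 1) * kDen M k : ℕ)) : ℂ) *
        ((divC k)⁻¹ * (lipConst M k * coefA M w k n)) =
        ((kDen M k : ℕ) : ℂ) * coefA M w k n := by
      rw [hdiv]
      push_cast
      field_simp
    rw [e]
    refine S.mul_mem (natCast_mem S _) ?_
    unfold coefA sigma2
    refine S.sum_mem fun x _ => S.mul_mem (S.pow_mem (natCast_mem S _) _)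
      (hatG_mem M S hζ _ ?_ _)
    intro b
    unfold symW
    exact S.add_mem (hw _ _) (S.mul_mem (S.pow_mem (S.neg_mem S.one_mem) _) (hw _ _))

/-! ### The expansions of the translates -/

/-- The `X`-expansion of `P_a ∘ γ`. -/
def pTransSeries (M : ℕ) [NeZero M] (γ : SL(2, ℤ)) (a : ZMod M) : LaurentSeries ℂ :=
  HahnSeries.C (divC 11)⁻¹ * yWSeries M (actW M γ (typeI M a))

theorem infExp_compSL_pFun (M : ℕ) [NeZero M] (γ : SL(2, ℤ)) (a : ZMod M) :
    InfExp M (compSL γ (pFun M a)) (pTransSeries M γ a) := by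
  have h1 := (InfExp.const (N := M) (divC 11)⁻¹).mul (infExp_yW M (actW M γ (typeI M a)))
  refine h1.congr fun τ => ?_
  have h := congrFun (compSL_yW M (typeI M a) γ) τ
  simp only [compSL_apply] at h
  simp only [compSL_apply, pFun, h]

theorem typeI_mem (M : ℕ) (a : ZMod M) (S : Subring ℂ) (x y : ZMod M) : typeI M a x y ∈ S := by
  unfold typeI
  split_ifs
  · exact S.one_mem
  · exact S.zero_mem

theorem actW_mem (M : ℕ) (γ : SL(2, ℤ)) (w : ZMod M → ZMod M → ℂ) (S : Subring ℂ)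
    (hw : ∀ x y, w x y ∈ S) (x y : ZMod M) : actW M γ w x y ∈ S := hw _ _

/-- **Bounded denominators for the translates of `P_a`**: `bdDen · (P_a ∘ γ)` has an expansion
with coefficients in every subring containing the `M`-th roots of unity. -/
theorem pTransSeries_bd (M : ℕ) [NeZero M] (γ : SL(2, ℤ)) (a : ZMod M) (S : Subring ℂ)
    (hζ : ∀ a : ℤ, zetaPow M a ∈ S) :
    HahnSeries.C ((bdDen M 11 : ℕ) : ℂ) * pTransSeries M γ a ∈ coeffSub S := by
  unfold pTransSeries yWSeries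
  rw [← mul_assoc, ← mul_assoc]
  refine (coeffSub S).mul_mem ?_ (qExpand_mem_coeffSub M (deltaInvSeriesC_mem_coeffSub S))
  intro n
  rw [← map_mul, HahnSeries.C_mul_eq_smul, HahnSeries.coeff_smul, smul_eq_mul]
  rcases lt_or_ge n 0 with hn | hn
  · rw [ofPowerSeries_coeff_of_neg ℂ _ hn, mul_zero]
    exact S.zero_mem
  · obtain ⟨m, rfl⟩ := Int.eq_ofNat_of_zero_le hn
    rw [HahnSeries.ofPowerSeries_apply_coeff, coefXSeries, PowerSeries.coeff_mk, mul_assoc]
    exact coefX_bd_mem M (by norm_num) _ S hζ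
      (actW_mem M γ _ S (typeI_mem M a S)) m

/-! ### Lifting series along `ι : E →+* ℂ` -/

section Lift

variable {E : Type*} [Field E] (ι : E →+* ℂ)

/-- A Laurent series over `ℂ` with coefficients in `ι(A)` comes from a Laurent series over `E`
with coefficients in `A`. -/
theorem exists_coeffMap_eq_of_mem_coeffSub (A : Subring E) (Φ : LaurentSeries ℂ)
    (h : Φ ∈ coeffSub (A.map ι)) :
    ∃ φ : LaurentSeries E, (∀ n, φ.coeff n ∈ A) ∧ coeffMap ι φ = Φ := by
  classical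
  have hch : ∀ n : ℤ, ∃ e : E, e ∈ A ∧ ι e = Φ.coeff n := fun n => by
    obtain ⟨e, he, hι⟩ := (Subring.mem_map).mp (h n)
    exact ⟨e, he, hι⟩
  choose e he hι using hch
  let f : ℤ → E := fun n => if Φ.coeff n = 0 then 0 else e n
  have hsupp : Function.support f ⊆ Φ.support := by
    intro n hn
    rw [Function.mem_support] at hn
    rw [HahnSeries.mem_support]
    intro h0
    apply hn
    show (if Φ.coeff n = 0 then 0 else e n) = 0
    rw [if_pos h0]
  refine ⟨⟨f, Φ.isPWO_support.mono hsupp⟩, fun n => ?_, ?_⟩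
  · show (if Φ.coeff n = 0 then 0 else e n) ∈ A
    split_ifs
    · exact A.zero_mem
    · exact he n
  · ext n
    rw [coeffMap_coeff]
    show ι (if Φ.coeff n = 0 then 0 else e n) = Φ.coeff n
    split_ifs with h0
    · rw [map_zero, h0]
    · exact hι n

end Lift

/-! ### The division values in `iactRing` -/

section Conc

open Fermat.Agent.S48.H828 Fermat.Agent.S48.H856 Fermat.Agent.S18.Alg

variable {E : Type*} [Field E] [CharZero E] {ι : E →+* ℂ} {M : ℕ} [NeZero M]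
variable (ζ : Eˣ) (hζ : Units.map (ι : E →* ℂ) ζ = Fermat.Agent.S24.infRoot 1 M)

omit [CharZero E] [NeZero M] in
include hζ in
theorem iota_zeta_zpow (a : ℤ) : ι ((ζ ^ a : Eˣ) : E) = zetaPow M a := by
  have h1 : ι (ζ : E) = Complex.exp (2 * π * Complex.I * (1 : ℤ) / M) := by
    have := congrArg Units.val hζ
    simpa using this
  rw [Units.val_zpow_eq_zpow_val, map_zpow₀, h1, ← Complex.exp_int_mul]
  unfold zetaPow
  congr 1
  push_cast
  ring

include hζ in
/-- the lift to `E` of the expansion of `bdDen · (P_a ∘ γ)`, with coefficients in any subring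
containing the powers of `ζ` -/
theorem exists_bd_lift (A : Subring E) (hA : ∀ a : ℤ, ((ζ ^ a : Eˣ) : E) ∈ A) (γ : SL(2, ℤ))
    (a : ZMod M) :
    ∃ φ : LaurentSeries E, (∀ n, φ.coeff n ∈ A) ∧
      coeffMap ι φ = HahnSeries.C ((bdDen M 11 : ℕ) : ℂ) * pTransSeries M γ a := by
  apply exists_coeffMap_eq_of_mem_coeffSub ι A
  apply pTransSeries_bd M γ a (A.map ι)
  intro b
  rw [← iota_zeta_zpow ζ hζ b]
  exact Subring.mem_map.mpr ⟨_, hA b, rfl⟩

include hζ in
theorem iactRat_compSL_pFun (γ : SL(2, ℤ)) (a : ZMod M) :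
    IActRat ι M (compSL γ (pFun M a)) := by
  obtain ⟨φ, -, hφ⟩ := exists_bd_lift ζ hζ ⊤ (fun _ => Subring.mem_top _) γ a
  have hD : ((bdDen M 11 : ℕ) : ℂ) ≠ 0 := Nat.cast_ne_zero.mpr (bdDen_ne_zero M 11)
  refine ⟨HahnSeries.C (((bdDen M 11 : ℕ) : E))⁻¹ * φ, ?_⟩
  have e : coeffMap ι (HahnSeries.C (((bdDen M 11 : ℕ) : E))⁻¹ * φ) = pTransSeries M γ a := by
    rw [map_mul, hφ, iact_coeffMap_C, ← mul_assoc, ← map_mul, map_inv₀, map_natCast ι,
      inv_mul_cancel₀ hD, map_one, one_mul]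
  rw [e]
  exact infExp_compSL_pFun M γ a

omit [CharZero E] [NeZero M] in
theorem Gamma_le_Gamma1' {γ : SL(2, ℤ)} (hγ : γ ∈ CongruenceSubgroup.Gamma M) :
    γ ∈ Gamma1 M := by
  rw [CongruenceSubgroup.Gamma_mem] at hγ
  rw [Gamma1_mem]
  exact ⟨hγ.1, hγ.2.2.2, hγ.2.2.1⟩

include hζ in
/-- **The avatar of `P_a` lies in `iactRing`.** -/
theorem pFun_mem_iactRing (a : ZMod M) : pFun M a ∈ iactRing ι M := by
  refine ⟨mdiff_pFun M a, fun γ hγ => ?_, fun γ => iactRat_compSL_pFun ζ hζ γ a⟩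
  funext τ
  exact pFun_smul_Gamma1 M a γ (Gamma_le_Gamma1' hγ) τ

/-- **The division value `P_a` as an element of `iactRing ι M`.** -/
def iactP (a : ZMod M) : iactRing ι M := ⟨pFun M a, pFun_mem_iactRing ζ hζ a⟩

@[simp] theorem iactP_coe (a : ZMod M) : ((iactP ζ hζ a : iactRing ι M) : ℍ → ℂ) = pFun M a := rfl

/-- **The `X`-expansion of `P_a`** is `P_a(X^M)`. -/
theorem iactExp_iactP {a : ZMod M} (ha : a ≠ 0) :
    iactExp ι M (iactP ζ hζ a) = qExpand E M (F1.divGenC E M a) := by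
  apply iactExp_eq
  rw [coeffMap_qExpand, F1.coeffMap_divGenC]
  exact infExp_level (infExp_pFun M ha)

/-- **Diamond law** in `iactRing`: `P_a ∘ γ = P_{a γ₀₀}` for `γ ∈ Γ₀(M)`. -/
theorem iactComp_iactP (a : ZMod M) {γ : SL(2, ℤ)} (hγ : γ ∈ Gamma0 M) :
    iactComp ι M γ (iactP ζ hζ a) = iactP ζ hζ (a * ((γ 0 0 : ℤ) : ZMod M)) :=
  Subtype.ext (compSL_pFun M a γ hγ)

/-- **Diamond law**, action form: `γ • P_a = P_{a γ₁₁}` for `γ ∈ Γ₀(M)`. -/
theorem smul_iactP (a : ZMod M) {γ : SL(2, ℤ)} (hγ : γ ∈ Gamma0 M) :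
    γ • iactP ζ hζ a = iactP ζ hζ (a * ((γ 1 1 : ℤ) : ZMod M)) := by
  rw [iact_smul_def, iactComp_iactP ζ hζ a (inv_mem hγ)]
  have e00 : ((γ⁻¹ : SL(2, ℤ)) 0 0 : ℤ) = γ 1 1 := by
    rw [Matrix.SpecialLinearGroup.SL2_inv_expl]; rfl
  rw [e00]

theorem smul_iactP_of_mem_Gamma1 (a : ZMod M) {γ : SL(2, ℤ)} (hγ : γ ∈ Gamma1 M) :
    γ • iactP ζ hζ a = iactP ζ hζ a := by
  rw [smul_iactP ζ hζ a (Gamma1_in_Gamma0 M hγ), ((Gamma1_mem M γ).mp hγ).2.1, mul_one]

theorem iactP_neg (a : ZMod M) : iactP ζ hζ (-a) = iactP ζ hζ a :=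
  Subtype.ext (pFun_neg M a)

/-! ### Bounded denominators -/

variable (𝒪 : ValuationSubring E) {w₀ : E}

include hζ in
theorem zeta_zpow_mem (a : ℤ) : ((ζ ^ a : Eˣ) : E) ∈ 𝒪.toSubring := by
  have h1 : 𝒪.valuation ((ζ⁻¹ : Eˣ) : E) = 1 := iact_valuation_zeta 𝒪 ζ hζ
  have h2 : 𝒪.valuation (ζ : E) = 1 := by
    have : 𝒪.valuation ((ζ : E) * ((ζ⁻¹ : Eˣ) : E)) = 1 := by
      rw [← Units.val_mul, mul_inv_cancel, Units.val_one, map_one]
    rwa [map_mul, h1, mul_one] at this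
  show ((ζ ^ a : Eˣ) : E) ∈ 𝒪
  rw [← 𝒪.valuation_le_one_iff, Units.val_zpow_eq_zpow_val, map_zpow₀, h2, one_zpow]

include hζ in
/-- **Integrality**: `bdDen · (γ • P_a)` has an `𝒪`-integral expansion, for EVERY `γ ∈ SL₂(ℤ)`
and every valuation subring `𝒪` of `E`. -/
theorem isInt_bdDen_smul_iactP (γ : SL(2, ℤ)) (a : ZMod M) :
    IsInt 𝒪 (HahnSeries.C (((bdDen M 11 : ℕ) : E)) * iactExp ι M (γ • iactP ζ hζ a)) := by
  obtain ⟨φ, hφA, hφ⟩ := exists_bd_lift ζ hζ 𝒪.toSubring (zeta_zpow_mem ζ hζ 𝒪) γ⁻¹ a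
  have h1 : InfExp M (compSL γ⁻¹ (pFun M a))
      (coeffMap ι (iactExp ι M (γ • iactP ζ hζ a))) := iactExp_spec (γ • iactP ζ hζ a)
  have h2 := (infExp_compSL_pFun M γ⁻¹ a).unique h1
  have h3 : coeffMap ι φ =
      coeffMap ι (HahnSeries.C (((bdDen M 11 : ℕ) : E)) * iactExp ι M (γ • iactP ζ hζ a)) := by
    rw [hφ, map_mul, iact_coeffMap_C, map_natCast ι, h2]
  rw [← inf_coeffMap_injective ι.injective h3]
  exact hφA

include hζ in
/-- **I-GEN**: every `SL₂(ℤ)`-translate of `P_a` has an expansion with bounded denominators. -/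
theorem isBd_smul_iactP (hd : IsDiscrete 𝒪 w₀) (γ : SL(2, ℤ)) (a : ZMod M) :
    IsBd 𝒪 (iactFieldExp ι M) (iactFC ι M w₀)
      (γ • algebraMap (iactRing ι M) (IActField ι M) (iactP ζ hζ a)) := by
  have hD : (((bdDen M 11 : ℕ) : E)) ≠ 0 := Nat.cast_ne_zero.mpr (bdDen_ne_zero M 11)
  set U := γ • algebraMap (iactRing ι M) (IActField ι M) (iactP ζ hζ a) with hU
  have e : U = iactFC ι M (((bdDen M 11 : ℕ) : E))⁻¹ *
      (iactFC ι M (((bdDen M 11 : ℕ) : E)) * U) := by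
    rw [← mul_assoc, ← map_mul, inv_mul_cancel₀ hD, map_one, one_mul]
  rw [e]
  refine IsBd.mul (isBd_of_ex_eq_C (iact_gaussHyp 𝒪 hd) (iactFieldExp_C _)) (isBd_of_isInt ?_)
  rw [map_mul, iactFieldExp_C, hU, iact_smul_algebraMap, iactFieldExp_algebraMap]
  exact isInt_bdDen_smul_iactP ζ hζ 𝒪 γ a

include hζ in
/-- `P_a` lies in the field `iactBd` of helper856's concrete `IgusaData`. -/
theorem iactP_mem_iactBd (hd : IsDiscrete 𝒪 w₀) (a : ZMod M) :
    algebraMap (iactRing ι M) (IActField ι M) (iactP ζ hζ a) ∈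
      iactBd (ι := ι) (M := M) 𝒪 hd :=
  mem_iactBd_of_isBd 𝒪 hd fun γ => isBd_smul_iactP ζ hζ 𝒪 hd γ a

end Conc

end Fermat.Agent.S48.H76
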