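import Mathlib
import Fermat.Agent.S29.H332.WeightedEis
import Fermat.Agent.S22T.Expand

/-!
# S48 / Tower A1, piece GEN-QX (helper76): `q`-expansion of level-`M` Eisenstein series

For a weight `w : ZMod M → ZMod M → ℂ` (periodic modulo `M` in both variables) and `k ≥ 3` the
weighted Eisenstein series of `S29/H332`

  `G_w(z) = ∑_{(c,d) ∈ ℤ²} w(c,d) (c z + d)^{-k}`

has the expansion in `X = e^{2πiz/M}`

  `G_w(z) = ∑_d w(0,d) d^{-k} + ((-2πi)^k / ((k-1)! M^k)) ∑_{n ≥ 1} A_w(n) X^n`,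
  `A_w(n) = ∑_{c m = n} m^{k-1} ∑_{b mod M} (w(c,b) + (-1)^k w(-c,-b)) ζ^{b m}`,  `ζ = e^{2πi/M}`.
-/

set_option autoImplicit false

open UpperHalfPlane EisensteinSeries ModularForm Filter Topology Complex
open scoped Matrix MatrixGroups Manifold Real

noncomputable section

namespace Fermat.Agent.S48.H76

open Fermat.Agent.S29

local notation "𝕢" => Function.Periodic.qParam

/-- `ζ_M^a = e^{2πi a/M}` for an integer `a`. -/
def zetaPow (M : ℕ) (a : ℤ) : ℂ := cexp (2 * π * Complex.I * a / M)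

theorem zetaPow_add (M : ℕ) (a b : ℤ) : zetaPow M (a + b) = zetaPow M a * zetaPow M b := by
  unfold zetaPow
  rw [← Complex.exp_add]
  congr 1
  push_cast
  ring

theorem zetaPow_zero (M : ℕ) : zetaPow M 0 = 1 := by
  simp [zetaPow]

theorem norm_zetaPow (M : ℕ) (a : ℤ) : ‖zetaPow M a‖ = 1 := by
  unfold zetaPow
  rw [Complex.norm_exp]
  have : (2 * (π : ℂ) * Complex.I * a / M).re = 0 := by
    have h : (2 * (π : ℂ) * Complex.I * a / M) = ((2 * π * a / M : ℝ) : ℂ) * Complex.I := by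
      push_cast
      ring
    rw [h]
    simp
  rw [this, Real.exp_zero]

theorem zetaPow_mul_self (M : ℕ) [NeZero M] (a : ℤ) : zetaPow M (a * M) = 1 := by
  unfold zetaPow
  have hM : (M : ℂ) ≠ 0 := Nat.cast_ne_zero.mpr (NeZero.ne M)
  have : 2 * (π : ℂ) * Complex.I * ((a * M : ℤ) : ℂ) / M = a * (2 * π * Complex.I) := by
    push_cast
    field_simp
  rw [this]
  exact Complex.exp_int_mul_two_pi_mul_I a

theorem zetaPow_add_mul (M : ℕ) [NeZero M] (a t : ℤ) : zetaPow M (a + t * M) = zetaPow M a := by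
  rw [zetaPow_add, zetaPow_mul_self, mul_one]

/-- **Lipschitz formula on an arithmetic progression.** -/
theorem lipschitz_shift (M : ℕ) [NeZero M] {k : ℕ} (hk : 1 ≤ k) (z : ℍ) (b : ℤ) :
    ∑' t : ℤ, 1 / ((z : ℂ) + b + t * M) ^ (k + 1) =
      ((-2 * π * Complex.I) ^ (k + 1) / (k.factorial * (M : ℂ) ^ (k + 1))) *
        ∑' m : ℕ+, (m : ℂ) ^ k * (zetaPow M (b * m) * cexp (2 * π * Complex.I * z / M) ^ (m : ℕ)) := by
  have hM : (M : ℂ) ≠ 0 := Nat.cast_ne_zero.mpr (NeZero.ne M)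
  have hMpos : (0 : ℝ) < M := Nat.cast_pos.mpr (Nat.pos_of_ne_zero (NeZero.ne M))
  have him : 0 < (((z : ℂ) + b) / M).im := by
    have h1 : (((z : ℂ) + b) / M) = (((z : ℂ) + b)) * (((M : ℝ)⁻¹ : ℝ) : ℂ) := by
      push_cast
      rw [div_eq_mul_inv]
    rw [h1, Complex.mul_im]
    simp only [Complex.add_im, Complex.intCast_im, add_zero, Complex.ofReal_re,
      Complex.ofReal_im, mul_zero]
    rw [zero_add]
    exact mul_pos z.2 (inv_pos.mpr hMpos)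
  have H := qExpansion_identity_pnat hk ⟨((z : ℂ) + b) / M, him⟩
  simp only at H
  have hL : ∀ t : ℤ, 1 / ((z : ℂ) + b + t * M) ^ (k + 1) =
      (1 / (M : ℂ) ^ (k + 1)) * (1 / (((z : ℂ) + b) / M + t) ^ (k + 1)) := by
    intro t
    have : ((z : ℂ) + b) / M + t = ((z : ℂ) + b + t * M) / M := by
      field_simp
    rw [this, div_pow]
    field_simp
  simp_rw [hL]
  rw [tsum_mul_left, H]
  have hR : ∀ m : ℕ+, (m : ℂ) ^ k * cexp (2 * π * Complex.I * (((z : ℂ) + b) / M)) ^ (m : ℕ) =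
      (m : ℂ) ^ k * (zetaPow M (b * m) * cexp (2 * π * Complex.I * z / M) ^ (m : ℕ)) := by
    intro m
    congr 1
    unfold zetaPow
    rw [← Complex.exp_nat_mul, ← Complex.exp_nat_mul, ← Complex.exp_add]
    congr 1
    push_cast
    field_simp
    ring
  simp_rw [hR]
  field_simp

/-- Summation over `ℤ` by residue classes modulo `M`. -/
theorem tsum_int_eq_sum_residue (M : ℕ) [NeZero M] {F : ℤ → ℂ} (hF : Summable F) :
    ∑' d : ℤ, F d = ∑ b ∈ Finset.range M, ∑' t : ℤ, F (t * M + b) := by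
  have e := (Int.divModEquiv M).symm
  have hS : Summable fun p : ℤ × Fin M => F ((Int.divModEquiv M).symm p) :=
    (Int.divModEquiv M).symm.summable_iff.mpr hF
  rw [← (Int.divModEquiv M).symm.tsum_eq F, hS.tsum_prod]
  simp only [Int.divModEquiv_symm_apply, tsum_fintype]
  rw [Summable.tsum_finsetSum]
  · rw [Fin.sum_univ_eq_sum_range (fun b : ℕ => ∑' t : ℤ, F (t * M + b)) M]
  · intro b _
    have hinj : Function.Injective (fun t : ℤ => ((t, b) : ℤ × Fin M)) :=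
      fun t t' h => (Prod.mk.inj h).1
    have h1 := hS.comp_injective hinj
    simpa [Function.comp_def, Int.divModEquiv_symm_apply] using h1

/-- The finite Fourier transform `ĝ(m) = ∑_{b mod M} g(b) ζ^{b m}`. -/
def hatG (M : ℕ) (g : ZMod M → ℂ) (m : ℤ) : ℂ :=
  ∑ b ∈ Finset.range M, g (b : ZMod M) * zetaPow M ((b : ℤ) * m)

theorem norm_hatG_le (M : ℕ) (g : ZMod M → ℂ) (m : ℤ) :
    ‖hatG M g m‖ ≤ ∑ b ∈ Finset.range M, ‖g (b : ZMod M)‖ := by
  unfold hatG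
  refine (norm_sum_le _ _).trans (Finset.sum_le_sum fun b _ => ?_)
  rw [norm_mul, norm_zetaPow, mul_one]

theorem norm_qM_lt_one (M : ℕ) [NeZero M] (z : ℍ) :
    ‖cexp (2 * π * Complex.I * z / M)‖ < 1 := by
  have hMpos : (0 : ℝ) < M := Nat.cast_pos.mpr (Nat.pos_of_ne_zero (NeZero.ne M))
  rw [Complex.norm_exp]
  have : (2 * (π : ℂ) * Complex.I * z / M).re = -(2 * π * z.im / M) := by
    have h : (2 * (π : ℂ) * Complex.I * z / M) =
        (((2 * π / M : ℝ) : ℂ) * Complex.I) * (z : ℂ) := by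
      push_cast
      ring
    rw [h, Complex.mul_re]
    simp
    ring
  rw [this]
  have hz := z.2
  have h2 : 0 < 2 * π * z.im / M := by positivity
  calc rexp (-(2 * π * z.im / M)) < rexp 0 := Real.exp_lt_exp.mpr (by linarith)
    _ = 1 := Real.exp_zero

/-- The constant `(-2πi)^{k+1} / (k! M^{k+1})`. -/
def lipConst (M k : ℕ) : ℂ :=
  (-2 * π * Complex.I) ^ (k + 1) / (k.factorial * (M : ℂ) ^ (k + 1))

theorem summable_row (M : ℕ) [NeZero M] {k : ℕ} (hk : 1 ≤ k) (g : ZMod M → ℂ) (z : ℂ) :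
    Summable fun d : ℤ => g (d : ZMod M) * (1 / (z + d) ^ (k + 1)) := by
  have h1 : Summable fun d : ℤ => (((1 : ℤ) * z + d) ^ ((k + 1 : ℕ) : ℤ))⁻¹ :=
    linear_right_summable z 1 (by omega)
  have h2 : Summable fun d : ℤ => ‖(((1 : ℤ) * z + d) ^ ((k + 1 : ℕ) : ℤ))⁻¹‖ := h1.norm
  obtain ⟨B, hB⟩ : ∃ B : ℝ, ∀ x : ZMod M, ‖g x‖ ≤ B := by
    exact ⟨∑ x : ZMod M, ‖g x‖, fun x =>
      Finset.single_le_sum (f := fun x => ‖g x‖) (fun _ _ => norm_nonneg _) (Finset.mem_univ x)⟩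
  refine Summable.of_norm_bounded (h2.mul_left B) fun d => ?_
  rw [norm_mul]
  have e : (1 / (z + d) ^ (k + 1)) = (((1 : ℤ) * z + d) ^ ((k + 1 : ℕ) : ℤ))⁻¹ := by
    rw [zpow_natCast]
    simp
  rw [e]
  exact mul_le_mul_of_nonneg_right (hB _) (norm_nonneg _)

theorem summable_qterm {k : ℕ} {r : ℂ} (hr : ‖r‖ < 1) (a : ℕ+ → ℂ) (B : ℝ)
    (ha : ∀ m, ‖a m‖ ≤ B) :
    Summable fun m : ℕ+ => (m : ℂ) ^ k * (a m * r ^ (m : ℕ)) := by
  have h := summable_norm_pow_mul_geometric_of_norm_lt_one k hr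
  have h' : Summable fun m : ℕ+ => ‖((m : ℕ) : ℂ) ^ k * r ^ (m : ℕ)‖ :=
    h.subtype _
  refine Summable.of_norm_bounded (h'.mul_left B) fun m => ?_
  rw [norm_mul, norm_mul, norm_mul]
  calc ‖(m : ℂ) ^ k‖ * (‖a m‖ * ‖r ^ (m : ℕ)‖)
      = ‖a m‖ * (‖(m : ℂ) ^ k‖ * ‖r ^ (m : ℕ)‖) := by ring
    _ ≤ B * (‖(m : ℂ) ^ k‖ * ‖r ^ (m : ℕ)‖) :=
        mul_le_mul_of_nonneg_right (ha m) (by positivity)

/-- **Row sum.** `∑_d g(d) (z+d)^{-(k+1)} = c ∑_m m^k ĝ(m) X^m`, `X = e^{2πiz/M}`. -/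
theorem row_sum (M : ℕ) [NeZero M] {k : ℕ} (hk : 1 ≤ k) (g : ZMod M → ℂ) (z : ℍ) :
    ∑' d : ℤ, g (d : ZMod M) * (1 / ((z : ℂ) + d) ^ (k + 1)) =
      lipConst M k * ∑' m : ℕ+, (m : ℂ) ^ k *
        (hatG M g m * cexp (2 * π * Complex.I * z / M) ^ (m : ℕ)) := by
  rw [tsum_int_eq_sum_residue M (summable_row M hk g z)]
  have hb : ∀ b ∈ Finset.range M,
      ∑' t : ℤ, g (((t * M + b : ℤ)) : ZMod M) * (1 / ((z : ℂ) + ((t * M + b : ℤ))) ^ (k + 1)) =
        ∑' m : ℕ+, lipConst M k * ((m : ℂ) ^ k * (g (b : ZMod M) * zetaPow M ((b : ℤ) * m) *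
          cexp (2 * π * Complex.I * z / M) ^ (m : ℕ))) := by
    intro b _
    have h1 : ∀ t : ℤ, g (((t * M + b : ℤ)) : ZMod M) *
        (1 / ((z : ℂ) + ((t * M + b : ℤ))) ^ (k + 1)) =
        g (b : ZMod M) * (1 / ((z : ℂ) + (b : ℤ) + t * M) ^ (k + 1)) := by
      intro t
      congr 2
      · push_cast
        simp
      · push_cast
        ring
    simp_rw [h1]
    rw [tsum_mul_left, lipschitz_shift M hk z b, tsum_mul_left, ← mul_assoc,
      mul_comm (g (b : ZMod M)), mul_assoc, ← tsum_mul_left]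
    congr 1
    refine tsum_congr fun m => ?_
    ring
  rw [Finset.sum_congr rfl hb]
  rw [← Summable.tsum_finsetSum]
  · rw [← tsum_mul_left]
    refine tsum_congr fun m => ?_
    unfold hatG
    rw [Finset.sum_mul, Finset.mul_sum, Finset.mul_sum]
  · intro b _
    refine Summable.mul_left _ ?_
    refine summable_qterm (norm_qM_lt_one M z) (fun m => g (b : ZMod M) * zetaPow M ((b : ℤ) * m))
      ‖g (b : ZMod M)‖ (fun m => ?_) |>.congr fun m => by ring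
    rw [norm_mul, norm_zetaPow, mul_one]

/-! ### Rearrangement of the double series -/

/-- The divisor sum `∑_{c m = n} m^k a(c,m)`. -/
def sigma2 (a : ℕ → ℕ → ℂ) (k n : ℕ) : ℂ :=
  ∑ x ∈ n.divisorsAntidiagonal, (x.2 : ℂ) ^ k * a x.1 x.2

theorem sigma2_zero (a : ℕ → ℕ → ℂ) (k : ℕ) : sigma2 a k 0 = 0 := by
  simp [sigma2]

theorem summable_prod_weight2 (a : ℕ → ℕ → ℂ) (B : ℝ) (ha : ∀ c m, ‖a c m‖ ≤ B) (k : ℕ)
    {r : ℂ} (hr : ‖r‖ < 1) :
    Summable fun c : (ℕ+ × ℕ+) ↦ (c.2 : ℂ) ^ k * (a c.1 c.2 * r ^ (c.1 * c.2 : ℕ)) := by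
  have h := (summable_prod_mul_pow (𝕜 := ℂ) k hr).norm
  refine Summable.of_norm_bounded (h.mul_left B) fun c => ?_
  rw [norm_mul, norm_mul, norm_mul]
  calc ‖((c.2 : ℕ) : ℂ) ^ k‖ * (‖a c.1 c.2‖ * ‖r ^ (c.1 * c.2 : ℕ)‖)
      = ‖a c.1 c.2‖ * (‖((c.2 : ℕ) : ℂ) ^ k‖ * ‖r ^ (c.1 * c.2 : ℕ)‖) := by ring
    _ ≤ B * (‖((c.2 : ℕ) : ℂ) ^ k‖ * ‖r ^ (c.1 * c.2 : ℕ)‖) :=
        mul_le_mul_of_nonneg_right (ha _ _) (by positivity)

theorem sigma2_term_eq (a : ℕ → ℕ → ℂ) (k : ℕ) (r : ℂ) (n : ℕ+) :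
    ∑' x : Nat.divisorsAntidiagonal n,
      (fun c : ℕ+ × ℕ+ => (c.2 : ℂ) ^ k * (a c.1 c.2 * r ^ (c.1 * c.2 : ℕ)))
        (sigmaAntidiagonalEquivProd ⟨n, x⟩) = sigma2 a k n * r ^ (n : ℕ) := by
  rw [tsum_fintype, sigma2, Finset.sum_mul, Finset.univ_eq_attach]
  rw [← (n : ℕ).divisorsAntidiagonal.sum_attach
    (fun x : ℕ × ℕ => (x.2 : ℂ) ^ k * a x.1 x.2 * r ^ (n : ℕ))]
  refine Finset.sum_congr rfl fun x _ => ?_
  have hx := Nat.mem_divisorsAntidiagonal.mp x.2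
  simp only [sigmaAntidiagonalEquivProd, divisorsAntidiagonalFactors, Equiv.coe_fn_mk, PNat.mk_coe]
  rw [hx.1]
  ring

theorem summable_sigma2_mul_pow (a : ℕ → ℕ → ℂ) (B : ℝ) (ha : ∀ c m, ‖a c m‖ ≤ B) (k : ℕ)
    {r : ℂ} (hr : ‖r‖ < 1) :
    Summable fun n : ℕ+ => sigma2 a k n * r ^ (n : ℕ) := by
  have hs := summable_prod_weight2 a B ha k hr
  have hs' : Summable fun x : (Σ n : ℕ+, Nat.divisorsAntidiagonal n) =>
      (fun c : ℕ+ × ℕ+ => (c.2 : ℂ) ^ k * (a c.1 c.2 * r ^ (c.1 * c.2 : ℕ)))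
        (sigmaAntidiagonalEquivProd x) :=
    sigmaAntidiagonalEquivProd.summable_iff.mpr hs
  exact hs'.sigma.congr fun n => sigma2_term_eq a k r n

theorem tsum_prod_weight2_eq (a : ℕ → ℕ → ℂ) (B : ℝ) (ha : ∀ c m, ‖a c m‖ ≤ B) (k : ℕ)
    {r : ℂ} (hr : ‖r‖ < 1) :
    ∑' c : ℕ+, ∑' m : ℕ+, (m : ℂ) ^ k * (a c m * r ^ (c * m : ℕ)) =
      ∑' n : ℕ+, sigma2 a k n * r ^ (n : ℕ) := by
  have hs := summable_prod_weight2 a B ha k hr
  rw [← hs.tsum_prod (f := fun c : ℕ+ × ℕ+ =>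
    (c.2 : ℂ) ^ k * (a c.1 c.2 * r ^ (c.1 * c.2 : ℕ)))]
  rw [← sigmaAntidiagonalEquivProd.tsum_eq]
  have hs' : Summable fun x : (Σ n : ℕ+, Nat.divisorsAntidiagonal n) =>
      (fun c : ℕ+ × ℕ+ => (c.2 : ℂ) ^ k * (a c.1 c.2 * r ^ (c.1 * c.2 : ℕ)))
        (sigmaAntidiagonalEquivProd x) :=
    sigmaAntidiagonalEquivProd.summable_iff.mpr hs
  rw [hs'.tsum_sigma]
  exact tsum_congr fun n => sigma2_term_eq a k r n

/-! ### The periodic weights -/

/-- The weight on `ℤ²` attached to `w : ZMod M → ZMod M → ℂ`. -/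
def perWeight (M : ℕ) (w : ZMod M → ZMod M → ℂ) (v : Fin 2 → ℤ) : ℂ :=
  w ((v 0 : ℤ) : ZMod M) ((v 1 : ℤ) : ZMod M)

/-- A bound for `w`. -/
def wBound (M : ℕ) [NeZero M] (w : ZMod M → ZMod M → ℂ) : ℝ := ∑ x : ZMod M, ∑ y : ZMod M, ‖w x y‖

theorem norm_le_wBound (M : ℕ) [NeZero M] (w : ZMod M → ZMod M → ℂ) (x y : ZMod M) :
    ‖w x y‖ ≤ wBound M w := by
  unfold wBound
  calc ‖w x y‖ ≤ ∑ y' : ZMod M, ‖w x y'‖ :=
        Finset.single_le_sum (f := fun y' => ‖w x y'‖) (fun _ _ => norm_nonneg _)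
          (Finset.mem_univ y)
    _ ≤ ∑ x' : ZMod M, ∑ y' : ZMod M, ‖w x' y'‖ :=
        Finset.single_le_sum (f := fun x' => ∑ y' : ZMod M, ‖w x' y'‖)
          (fun _ _ => Finset.sum_nonneg fun _ _ => norm_nonneg _) (Finset.mem_univ x)

theorem wBound_nonneg (M : ℕ) [NeZero M] (w : ZMod M → ZMod M → ℂ) : 0 ≤ wBound M w :=
  Finset.sum_nonneg fun _ _ => Finset.sum_nonneg fun _ _ => norm_nonneg _

theorem norm_perWeight_le (M : ℕ) [NeZero M] (w : ZMod M → ZMod M → ℂ) (v : Fin 2 → ℤ) :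
    ‖perWeight M w v‖ ≤ wBound M w :=
  norm_le_wBound M w _ _

theorem summable_perWeight (M : ℕ) [NeZero M] (w : ZMod M → ZMod M → ℂ) {k : ℤ} (hk : 3 ≤ k)
    (z : ℍ) : Summable fun v : Fin 2 → ℤ => perWeight M w v * eisSummand k v z := by
  refine Summable.of_norm_bounded ((summable_norm_eisSummand hk z).mul_left (wBound M w))
    fun v => ?_
  rw [norm_mul]
  exact mul_le_mul_of_nonneg_right (norm_perWeight_le M w v) (norm_nonneg _)

/-- The symmetrised row weight `b ↦ w(c,b) + (-1)^{k+1} w(-c,-b)`. -/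
def symW (M : ℕ) (w : ZMod M → ZMod M → ℂ) (k c : ℕ) (b : ZMod M) : ℂ :=
  w (c : ZMod M) b + (-1) ^ (k + 1) * w (-(c : ZMod M)) (-b)

/-- The coefficient `A_w(n) = ∑_{c m = n} m^k ∑_b (w(c,b) + (-1)^{k+1} w(-c,-b)) ζ^{bm}`. -/
def coefA (M : ℕ) (w : ZMod M → ZMod M → ℂ) (k n : ℕ) : ℂ :=
  sigma2 (fun c m => hatG M (symW M w k c) m) k n

theorem hatG_add_smul (M : ℕ) (g h : ZMod M → ℂ) (a : ℂ) (m : ℤ) :
    hatG M (fun b => g b + a * h b) m = hatG M g m + a * hatG M h m := by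
  unfold hatG
  rw [Finset.mul_sum, ← Finset.sum_add_distrib]
  refine Finset.sum_congr rfl fun b _ => ?_
  ring

theorem qM_pow_mul (M : ℕ) (z : ℍ) (c : ℕ+) (hc : 0 < (((c : ℕ) : ℂ) * (z : ℂ)).im) (m : ℕ) :
    cexp (2 * π * Complex.I * ((⟨((c : ℕ) : ℂ) * z, hc⟩ : ℍ) : ℂ) / M) ^ m =
      cexp (2 * π * Complex.I * z / M) ^ ((c : ℕ) * m) := by
  rw [← Complex.exp_nat_mul, ← Complex.exp_nat_mul]
  congr 1
  push_cast
  show _ * (2 * π * Complex.I * (((c : ℕ) : ℂ) * (z : ℂ)) / M) = _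
  ring

theorem row_pos (M : ℕ) [NeZero M] {k : ℕ} (hk : 1 ≤ k) (w : ZMod M → ZMod M → ℂ) (z : ℍ)
    (c : ℕ+) :
    ∑' d : ℤ, perWeight M w ![((c : ℕ) : ℤ), d] * eisSummand ((k + 1 : ℕ) : ℤ) ![((c : ℕ) : ℤ), d] z
      = lipConst M k * ∑' m : ℕ+, (m : ℂ) ^ k *
          (hatG M (w (c : ℕ)) m * cexp (2 * π * Complex.I * z / M) ^ ((c : ℕ) * (m : ℕ))) := by
  have hc : 0 < (((c : ℕ) : ℂ) * (z : ℂ)).im := by
    rw [Complex.mul_im]
    simp only [Complex.natCast_re, Complex.natCast_im, zero_mul, add_zero]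
    exact mul_pos (Nat.cast_pos.mpr c.pos) z.2
  have H := row_sum M hk (w (c : ℕ)) ⟨((c : ℕ) : ℂ) * z, hc⟩
  simp_rw [qM_pow_mul M z c hc] at H
  rw [← H]
  refine tsum_congr fun d => ?_
  simp only [perWeight, eisSummand, Matrix.cons_val_zero, Matrix.cons_val_one]
  congr 1
  · simp
  · rw [zpow_neg, zpow_natCast]
    simp

theorem row_neg (M : ℕ) [NeZero M] {k : ℕ} (hk : 1 ≤ k) (w : ZMod M → ZMod M → ℂ) (z : ℍ)
    (c : ℕ+) :
    ∑' d : ℤ, perWeight M w ![-((c : ℕ) : ℤ), d] *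
        eisSummand ((k + 1 : ℕ) : ℤ) ![-((c : ℕ) : ℤ), d] z
      = lipConst M k * ∑' m : ℕ+, (m : ℂ) ^ k *
          (((-1) ^ (k + 1) * hatG M (fun b => w (-((c : ℕ) : ZMod M)) (-b)) m) *
            cexp (2 * π * Complex.I * z / M) ^ ((c : ℕ) * (m : ℕ))) := by
  have hc : 0 < (((c : ℕ) : ℂ) * (z : ℂ)).im := by
    rw [Complex.mul_im]
    simp only [Complex.natCast_re, Complex.natCast_im, zero_mul, add_zero]
    exact mul_pos (Nat.cast_pos.mpr c.pos) z.2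
  have H := row_sum M hk (fun b => w (-((c : ℕ) : ZMod M)) (-b)) ⟨((c : ℕ) : ℂ) * z, hc⟩
  simp_rw [qM_pow_mul M z c hc] at H
  have H' : lipConst M k * ∑' m : ℕ+, (m : ℂ) ^ k *
          (((-1) ^ (k + 1) * hatG M (fun b => w (-((c : ℕ) : ZMod M)) (-b)) m) *
            cexp (2 * π * Complex.I * z / M) ^ ((c : ℕ) * (m : ℕ))) =
      (-1) ^ (k + 1) * (lipConst M k * ∑' m : ℕ+, (m : ℂ) ^ k *
          (hatG M (fun b => w (-((c : ℕ) : ZMod M)) (-b)) m *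
            cexp (2 * π * Complex.I * z / M) ^ ((c : ℕ) * (m : ℕ)))) := by
    have e : ∀ m : ℕ+, (m : ℂ) ^ k *
          (((-1) ^ (k + 1) * hatG M (fun b => w (-((c : ℕ) : ZMod M)) (-b)) m) *
            cexp (2 * π * Complex.I * z / M) ^ ((c : ℕ) * (m : ℕ))) =
        (-1) ^ (k + 1) * ((m : ℂ) ^ k *
          (hatG M (fun b => w (-((c : ℕ) : ZMod M)) (-b)) m *
            cexp (2 * π * Complex.I * z / M) ^ ((c : ℕ) * (m : ℕ)))) := fun m => by ring
    simp_rw [e]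
    rw [tsum_mul_left]
    ring
  rw [H', ← H, ← tsum_mul_left]
  rw [← tsum_comp_neg (fun d : ℤ => perWeight M w ![-((c : ℕ) : ℤ), d] *
        eisSummand ((k + 1 : ℕ) : ℤ) ![-((c : ℕ) : ℤ), d] z)]
  refine tsum_congr fun d => ?_
  simp only [perWeight, eisSummand, Matrix.cons_val_zero, Matrix.cons_val_one]
  have e1 : ((-((c : ℕ) : ℤ) : ℤ) : ℂ) * (z : ℂ) + ((-d : ℤ) : ℂ) =
      -((((c : ℕ) : ℂ) * (z : ℂ)) + (d : ℂ)) := by
    push_cast
    ring
  rw [e1, zpow_neg, zpow_natCast, neg_pow]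
  have e2 : (((-((c : ℕ) : ℤ) : ℤ)) : ZMod M) = -((c : ℕ) : ZMod M) := by
    push_cast
    rfl
  rw [e2]
  have e3 : (((-d : ℤ)) : ZMod M) = -((d : ℤ) : ZMod M) := by
    push_cast
    rfl
  rw [e3]
  have hne : ((-1 : ℂ)) ^ (k + 1) ≠ 0 := pow_ne_zero _ (by norm_num)
  have hsq : ((-1 : ℂ)) ^ (k + 1) * (-1) ^ (k + 1) = 1 := by
    rw [← mul_pow]
    norm_num
  show _ * ((-1 : ℂ) ^ (k + 1) * (((c : ℕ) : ℂ) * (z : ℂ) + (d : ℂ)) ^ (k + 1))⁻¹ =
    (-1) ^ (k + 1) * (_ * (1 / (((c : ℕ) : ℂ) * (z : ℂ) + (d : ℂ)) ^ (k + 1)))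
  rw [mul_inv, one_div]
  have : ((-1 : ℂ) ^ (k + 1))⁻¹ = (-1) ^ (k + 1) := by
    rw [← inv_pow]
    norm_num
  rw [this]
  ring

theorem norm_hatG_symW_le (M : ℕ) [NeZero M] (w : ZMod M → ZMod M → ℂ) (k c : ℕ) (m : ℤ) :
    ‖hatG M (symW M w k c) m‖ ≤ M * (2 * wBound M w) := by
  refine (norm_hatG_le M _ m).trans ?_
  have h1 : ∀ b ∈ Finset.range M, ‖symW M w k c (b : ZMod M)‖ ≤ 2 * wBound M w := by
    intro b _
    unfold symW
    refine (norm_add_le _ _).trans ?_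
    rw [norm_mul, norm_pow, norm_neg, norm_one, one_pow, one_mul, two_mul]
    exact add_le_add (norm_le_wBound M w _ _) (norm_le_wBound M w _ _)
  calc ∑ b ∈ Finset.range M, ‖symW M w k c (b : ZMod M)‖
      ≤ ∑ _b ∈ Finset.range M, 2 * wBound M w := Finset.sum_le_sum h1
    _ = M * (2 * wBound M w) := by
        rw [Finset.sum_const, Finset.card_range, nsmul_eq_mul]

/-- **The expansion of a level-`M` Eisenstein series** (weight `k + 1 ≥ 3`), `tsum` form. -/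
theorem wEis_periodic_eq_tsum (M : ℕ) [NeZero M] {k : ℕ} (hk : 2 ≤ k)
    (w : ZMod M → ZMod M → ℂ) (z : ℍ) :
    H332.wEis (perWeight M w) ((k + 1 : ℕ) : ℤ) z =
      (∑' d : ℤ, perWeight M w ![0, d] * eisSummand ((k + 1 : ℕ) : ℤ) ![0, d] z) +
      lipConst M k *
        ∑' n : ℕ+, coefA M w k n * cexp (2 * π * Complex.I * z / M) ^ (n : ℕ) := by
  have hk3 : (3 : ℤ) ≤ ((k + 1 : ℕ) : ℤ) := by
    push_cast
    omega
  have hk1 : 1 ≤ k := by omega
  have hsum0 := summable_perWeight M w hk3 z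
  have hsum : Summable fun p : ℤ × ℤ =>
      perWeight M w ![p.1, p.2] * eisSummand ((k + 1 : ℕ) : ℤ) ![p.1, p.2] z := by
    have := (finTwoArrowEquiv ℤ).symm.summable_iff.mpr hsum0
    simpa [Function.comp_def, finTwoArrowEquiv_symm_apply] using this
  unfold H332.wEis
  rw [← (finTwoArrowEquiv ℤ).symm.tsum_eq]
  simp only [finTwoArrowEquiv_symm_apply]
  rw [hsum.tsum_prod, tsum_int_eq_zero_add_tsum_pnat hsum.prod]
  have hS1 : Summable fun c : ℕ+ => ∑' d : ℤ,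
      perWeight M w ![((c : ℕ) : ℤ), d] * eisSummand ((k + 1 : ℕ) : ℤ) ![((c : ℕ) : ℤ), d] z := by
    have hinj : Function.Injective (fun c : ℕ+ => (((c : ℕ) : ℤ))) := fun a b h => by
      have h' : ((a : ℕ) : ℤ) = ((b : ℕ) : ℤ) := h
      exact PNat.eq (by exact_mod_cast h')
    exact hsum.prod.comp_injective hinj
  have hS2 : Summable fun c : ℕ+ => ∑' d : ℤ,
      perWeight M w ![-((c : ℕ) : ℤ), d] *
        eisSummand ((k + 1 : ℕ) : ℤ) ![-((c : ℕ) : ℤ), d] z := by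
    have hinj : Function.Injective (fun c : ℕ+ => (-((c : ℕ) : ℤ))) := fun a b h => by
      have h' : ((a : ℕ) : ℤ) = ((b : ℕ) : ℤ) := neg_injective h
      exact PNat.eq (by exact_mod_cast h')
    exact hsum.prod.comp_injective hinj
  rw [add_assoc, ← hS1.tsum_add hS2]
  congr 1
  have hterm : ∀ c : ℕ+,
      (∑' d : ℤ, perWeight M w ![((c : ℕ) : ℤ), d] *
          eisSummand ((k + 1 : ℕ) : ℤ) ![((c : ℕ) : ℤ), d] z) +
      (∑' d : ℤ, perWeight M w ![-((c : ℕ) : ℤ), d] *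
          eisSummand ((k + 1 : ℕ) : ℤ) ![-((c : ℕ) : ℤ), d] z) =
      lipConst M k * ∑' m : ℕ+, (m : ℂ) ^ k *
        (hatG M (symW M w k c) m * cexp (2 * π * Complex.I * z / M) ^ ((c : ℕ) * (m : ℕ))) := by
    intro c
    rw [row_pos M hk1 w z c, row_neg M hk1 w z c, ← mul_add]
    congr 1
    have hr := norm_qM_lt_one M z
    have hs1 : Summable fun m : ℕ+ => (m : ℂ) ^ k *
        (hatG M (w (c : ℕ)) m * cexp (2 * π * Complex.I * z / M) ^ ((c : ℕ) * (m : ℕ))) := by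
      have := summable_prod_weight2 (fun c m => hatG M (w (c : ℕ)) m) (M * wBound M w)
        (fun c m => (norm_hatG_le M _ _).trans (by
          calc ∑ b ∈ Finset.range M, ‖w (c : ℕ) (b : ZMod M)‖
              ≤ ∑ _b ∈ Finset.range M, wBound M w :=
                Finset.sum_le_sum fun b _ => norm_le_wBound M w _ _
            _ = M * wBound M w := by rw [Finset.sum_const, Finset.card_range, nsmul_eq_mul])) k hr
      exact this.prod_factor c
    have hs2 : Summable fun m : ℕ+ => (m : ℂ) ^ k *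
        (((-1) ^ (k + 1) * hatG M (fun b => w (-((c : ℕ) : ZMod M)) (-b)) m) *
          cexp (2 * π * Complex.I * z / M) ^ ((c : ℕ) * (m : ℕ))) := by
      have := summable_prod_weight2
        (fun c m => (-1) ^ (k + 1) * hatG M (fun b => w (-((c : ℕ) : ZMod M)) (-b)) m)
        (M * wBound M w)
        (fun c m => by
          rw [norm_mul, norm_pow, norm_neg, norm_one, one_pow, one_mul]
          exact (norm_hatG_le M _ _).trans (by
            calc ∑ b ∈ Finset.range M, ‖w (-((c : ℕ) : ZMod M)) (-(b : ZMod M))‖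
                ≤ ∑ _b ∈ Finset.range M, wBound M w :=
                  Finset.sum_le_sum fun b _ => norm_le_wBound M w _ _
              _ = M * wBound M w := by
                  rw [Finset.sum_const, Finset.card_range, nsmul_eq_mul])) k hr
      exact this.prod_factor c
    rw [← hs1.tsum_add hs2]
    refine tsum_congr fun m => ?_
    unfold symW
    rw [hatG_add_smul]
    ring
  simp_rw [hterm]
  rw [tsum_mul_left]
  congr 1
  exact tsum_prod_weight2_eq (fun c m => hatG M (symW M w k c) m) (M * (2 * wBound M w))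
    (fun c m => norm_hatG_symW_le M w k c m) k (norm_qM_lt_one M z)

/-- The constant term `∑_{d ≠ 0} w(0,d) d^{-(k+1)}`. -/
def constTerm (M : ℕ) (w : ZMod M → ZMod M → ℂ) (k : ℕ) : ℂ :=
  ∑' d : ℤ, w 0 ((d : ℤ) : ZMod M) * ((d : ℂ) ^ (k + 1))⁻¹

/-- The coefficients of the expansion in `X = e^{2πiz/M}`. -/
def coefX (M : ℕ) (w : ZMod M → ZMod M → ℂ) (k n : ℕ) : ℂ :=
  if n = 0 then constTerm M w k else lipConst M k * coefA M w k n

theorem coefA_zero (M : ℕ) (w : ZMod M → ZMod M → ℂ) (k : ℕ) : coefA M w k 0 = 0 :=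
  sigma2_zero _ _

theorem qParam_M (M : ℕ) (z : ℍ) :
    𝕢 (M : ℝ) (z : ℂ) = cexp (2 * π * Complex.I * z / M) := by
  simp [Function.Periodic.qParam]

theorem summable_coefA (M : ℕ) [NeZero M] (w : ZMod M → ZMod M → ℂ) (k : ℕ) (z : ℍ) :
    Summable fun n : ℕ => coefA M w k n * cexp (2 * π * Complex.I * z / M) ^ n := by
  have h := summable_sigma2_mul_pow (fun c m => hatG M (symW M w k c) m) (M * (2 * wBound M w))
    (fun c m => norm_hatG_symW_le M w k c m) k (norm_qM_lt_one M z)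
  have h' : Summable fun n : ℕ+ =>
      (fun n : ℕ => coefA M w k n * cexp (2 * π * Complex.I * z / M) ^ n) n := h
  exact (summable_pnat_iff_summable_nat (f := fun n : ℕ =>
    coefA M w k n * cexp (2 * π * Complex.I * z / M) ^ n)).mp h'

/-- **The expansion of a level-`M` Eisenstein series** (weight `k + 1 ≥ 3`), `HasSum` form. -/
theorem hasSum_wEis_periodic (M : ℕ) [NeZero M] {k : ℕ} (hk : 2 ≤ k)
    (w : ZMod M → ZMod M → ℂ) (z : ℍ) :
    HasSum (fun n : ℕ => coefX M w k n • 𝕢 (M : ℝ) (z : ℂ) ^ n)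
      (H332.wEis (perWeight M w) ((k + 1 : ℕ) : ℤ) z) := by
  have hS := summable_coefA M w k z
  have h1 : ∑' n : ℕ+, coefA M w k n * cexp (2 * π * Complex.I * z / M) ^ (n : ℕ) =
      ∑' n : ℕ, coefA M w k n * cexp (2 * π * Complex.I * z / M) ^ n := by
    rw [← tsum_zero_pnat_eq_tsum_nat hS]
    simp [coefA_zero]
  have h0 : (∑' d : ℤ, perWeight M w ![0, d] * eisSummand ((k + 1 : ℕ) : ℤ) ![0, d] z) =
      constTerm M w k := by
    unfold constTerm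
    refine tsum_congr fun d => ?_
    simp only [perWeight, eisSummand, Matrix.cons_val_zero, Matrix.cons_val_one]
    congr 1
    · simp
    · rw [zpow_neg, zpow_natCast]
      simp
  rw [wEis_periodic_eq_tsum M hk w z, h0, h1, qParam_M]
  have h2 := (hS.mul_left (lipConst M k)).hasSum
  rw [tsum_mul_left] at h2
  have h3 : HasSum (fun n : ℕ => if n = 0 then constTerm M w k else 0) (constTerm M w k) := by
    convert hasSum_ite_eq (0 : ℕ) (constTerm M w k) using 2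
  convert h3.add h2 using 1
  funext n
  by_cases hn : n = 0
  · subst hn
    simp [coefX, coefA_zero]
  · simp [coefX, hn]
    ring

/-! ### Holomorphy, slash action, boundedness, `q`-expansion coefficients -/

theorem wEis_const_mul (a : ℂ) (c : (Fin 2 → ℤ) → ℂ) (k : ℤ) :
    H332.wEis (fun v => a * c v) k = fun z => a * H332.wEis c k z := by
  funext z
  unfold H332.wEis
  simp_rw [mul_assoc]
  rw [tsum_mul_left]

/-- Normalisation of a periodic weight: `w = B * w'` with `‖w'‖ ≤ 1`. -/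
theorem perWeight_normalise (M : ℕ) [NeZero M] (w : ZMod M → ZMod M → ℂ) :
    ∃ (B : ℂ) (c : (Fin 2 → ℤ) → ℂ), (∀ v, ‖c v‖ ≤ 1) ∧ perWeight M w = fun v => B * c v := by
  have hpos : (0 : ℝ) < wBound M w + 1 := by
    have := wBound_nonneg M w
    linarith
  have hne : ((wBound M w + 1 : ℝ) : ℂ) ≠ 0 := by
    exact_mod_cast hpos.ne'
  refine ⟨((wBound M w + 1 : ℝ) : ℂ), fun v => ((wBound M w + 1 : ℝ) : ℂ)⁻¹ * perWeight M w v,
    fun v => ?_, ?_⟩
  · rw [norm_mul, norm_inv, Complex.norm_real, Real.norm_of_nonneg hpos.le,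
      inv_mul_le_iff₀ hpos, mul_one]
    have := norm_perWeight_le M w v
    linarith
  · funext v
    rw [← mul_assoc, mul_inv_cancel₀ hne, one_mul]

theorem perWeight_mdiff (M : ℕ) [NeZero M] (w : ZMod M → ZMod M → ℂ) {k : ℤ} (hk : 3 ≤ k) :
    MDiff (H332.wEis (perWeight M w) k) := by
  obtain ⟨B, c, hc, hw⟩ := perWeight_normalise M w
  rw [hw, wEis_const_mul]
  exact (mdifferentiable_const (c := B)).mul (H332.wEis_mdifferentiable hc hk)

theorem perWeight_slash_isBoundedAtImInfty (M : ℕ) [NeZero M] (w : ZMod M → ZMod M → ℂ)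
    {k : ℤ} (hk : 3 ≤ k) (γ : SL(2, ℤ)) :
    IsBoundedAtImInfty (H332.wEis (perWeight M w) k ∣[k] γ) := by
  obtain ⟨B, c, hc, hw⟩ := perWeight_normalise M w
  rw [hw, wEis_const_mul]
  have h1 : (fun z => B * H332.wEis c k z) = B • H332.wEis c k := by
    funext z
    simp
  rw [h1, ModularForm.SL_smul_slash]
  exact (H332.wEis_slash_isBoundedAtImInfty hc hk γ).const_smul_left B

/-- The action of `γ` on periodic weights: `(γ · w)(v) = w(v γ⁻¹)`. -/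
def actW (M : ℕ) (γ : SL(2, ℤ)) (w : ZMod M → ZMod M → ℂ) : ZMod M → ZMod M → ℂ :=
  fun x y =>
    w (x * (((γ⁻¹ : SL(2, ℤ)) 0 0 : ℤ) : ZMod M) + y * (((γ⁻¹ : SL(2, ℤ)) 1 0 : ℤ) : ZMod M))
      (x * (((γ⁻¹ : SL(2, ℤ)) 0 1 : ℤ) : ZMod M) + y * (((γ⁻¹ : SL(2, ℤ)) 1 1 : ℤ) : ZMod M))

theorem perWeight_vecMul (M : ℕ) (γ : SL(2, ℤ)) (w : ZMod M → ZMod M → ℂ) (v : Fin 2 → ℤ) :
    perWeight M w (v ᵥ* (γ⁻¹).1) = perWeight M (actW M γ w) v := by
  simp only [perWeight, actW, Matrix.vecMul, dotProduct, Fin.sum_univ_two]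
  push_cast
  rfl

/-- **Slash action** on level-`M` Eisenstein series. -/
theorem perWeight_slash (M : ℕ) (w : ZMod M → ZMod M → ℂ) (k : ℤ) (γ : SL(2, ℤ)) :
    H332.wEis (perWeight M w) k ∣[k] γ = H332.wEis (perWeight M (actW M γ w)) k := by
  rw [H332.wEis_slash]
  congr 1
  funext v
  exact perWeight_vecMul M γ w v

/-- **`q`-expansion coefficients** (period `M`) of a level-`M` Eisenstein series. -/
theorem qExpansion_wEis_periodic (M : ℕ) [NeZero M] {k : ℕ} (hk : 2 ≤ k)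
    (w : ZMod M → ZMod M → ℂ) (n : ℕ) :
    (qExpansion (M : ℝ) (H332.wEis (perWeight M w) ((k + 1 : ℕ) : ℤ))).coeff n =
      coefX M w k n := by
  have hMpos : (0 : ℝ) < M := Nat.cast_pos.mpr (Nat.pos_of_ne_zero (NeZero.ne M))
  have hk3 : (3 : ℤ) ≤ ((k + 1 : ℕ) : ℤ) := by
    push_cast
    omega
  exact Fermat.Agent.S22T.qExpansion_coeff_of_hasSum hMpos (hasSum_wEis_periodic M hk w)
    (perWeight_mdiff M w hk3) n

/-- The level-`M` Eisenstein series of a `Γ`-invariant weight, as a modular form on `Γ`. -/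
def perMF (M : ℕ) [NeZero M] (w : ZMod M → ZMod M → ℂ) {k : ℤ} (hk : 3 ≤ k)
    (Γ : Subgroup SL(2, ℤ)) [Γ.FiniteIndex] (hΓ : ∀ γ ∈ Γ, actW M γ w = w) :
    ModularForm (Γ : Subgroup (GL (Fin 2) ℝ)) k where
  toFun := H332.wEis (perWeight M w) k
  slash_action_eq' A hA := by
    obtain ⟨A, hA, rfl⟩ := hA
    show H332.wEis (perWeight M w) k ∣[k] A = _
    rw [perWeight_slash, hΓ A hA]
  holo' := perWeight_mdiff M w hk
  bdd_at_cusps' {c} hc := by
    rw [Subgroup.IsArithmetic.isCusp_iff_isCusp_SL2Z] at hc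
    rw [OnePoint.isBoundedAt_iff_forall_SL2Z hc]
    intro γ _
    exact perWeight_slash_isBoundedAtImInfty M w hk γ

@[simp] theorem perMF_apply (M : ℕ) [NeZero M] (w : ZMod M → ZMod M → ℂ) {k : ℤ} (hk : 3 ≤ k)
    (Γ : Subgroup SL(2, ℤ)) [Γ.FiniteIndex] (hΓ : ∀ γ ∈ Γ, actW M γ w = w) (z : ℍ) :
    perMF M w hk Γ hΓ z = H332.wEis (perWeight M w) k z := rfl

end Fermat.Agent.S48.H76
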