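import Fermat.Agent.S48.H76.GenQX

/-!
# S48 / Tower A1, piece GEN-QX, part 2 (helper76): Eisenstein series on `Γ₁(M)` with expansion in `q`

For `g : ZMod M → ℂ` the weight `w(c,d) = [c ≡ 0] g(d)` is `Γ₁(M)`-invariant and

  `G_g(z) = ∑_{M ∣ c, d} g(d) (c z + d)^{-(k+1)}
          = ∑_d g(d) d^{-(k+1)} + ((-2πi)^{k+1} / (k! M^{k+1})) ∑_{n ≥ 1} (∑_{c m = n} m^k ĝs(m)) qⁿ`,

`q = e^{2πiz}`, `ĝs(m) = ∑_b (g(b) + (-1)^{k+1} g(-b)) ζ^{bm}`.
-/

set_option autoImplicit false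

open UpperHalfPlane EisensteinSeries ModularForm Filter Topology Complex CongruenceSubgroup
open scoped Matrix MatrixGroups Manifold Real

noncomputable section

namespace Fermat.Agent.S48.H76

open Fermat.Agent.S29

local notation "𝕢" => Function.Periodic.qParam

/-- The weight `w(c,d) = [c = 0] g(d)`. -/
def typeII (M : ℕ) (g : ZMod M → ℂ) : ZMod M → ZMod M → ℂ :=
  fun x y => if x = 0 then g y else 0

/-- `γ ∈ Γ₀(M)` acts on the weights of type II through its upper left entry. -/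
theorem actW_typeII_Gamma0 (M : ℕ) (g : ZMod M → ℂ) (γ : SL(2, ℤ)) (hγ : γ ∈ Gamma0 M) :
    actW M γ (typeII M g) = typeII M (fun y => g (y * ((γ 0 0 : ℤ) : ZMod M))) := by
  have hinv : γ⁻¹ ∈ Gamma0 M := (Gamma0 M).inv_mem hγ
  have h10 : (((γ⁻¹ : SL(2, ℤ)) 1 0 : ℤ) : ZMod M) = 0 := Gamma0_mem.mp hinv
  have h11 : ((γ⁻¹ : SL(2, ℤ)) 1 1 : ℤ) = γ 0 0 := by
    rw [Matrix.SpecialLinearGroup.SL2_inv_expl]
    rfl
  have h00 : ((γ⁻¹ : SL(2, ℤ)) 0 0 : ℤ) = γ 1 1 := by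
    rw [Matrix.SpecialLinearGroup.SL2_inv_expl]
    rfl
  have hdet : ((γ 0 0 : ℤ) : ZMod M) * ((γ 1 1 : ℤ) : ZMod M) = 1 := by
    have h := Matrix.SpecialLinearGroup.det_coe γ
    rw [Matrix.det_fin_two] at h
    have h2 : ((γ 1 0 : ℤ) : ZMod M) = 0 := Gamma0_mem.mp hγ
    have h3 := congrArg (fun t : ℤ => (t : ZMod M)) h
    simp only [Int.cast_sub, Int.cast_mul, Int.cast_one] at h3
    rw [h2, mul_zero, sub_zero] at h3
    exact h3
  funext x y
  simp only [actW, typeII, h10, h11, h00, mul_zero, add_zero]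
  by_cases hx : x = 0
  · subst hx
    simp
  · have hx' : x * ((γ 1 1 : ℤ) : ZMod M) ≠ 0 := by
      intro h0
      apply hx
      have := congrArg (fun t => t * ((γ 0 0 : ℤ) : ZMod M)) h0
      simp only [zero_mul] at this
      rw [mul_assoc, mul_comm ((γ 1 1 : ℤ) : ZMod M), hdet, mul_one] at this
      exact this
    rw [if_neg hx', if_neg hx]

theorem actW_typeII_Gamma1 (M : ℕ) (g : ZMod M → ℂ) (γ : SL(2, ℤ)) (hγ : γ ∈ Gamma1 M) :
    actW M γ (typeII M g) = typeII M g := by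
  have h0 : γ ∈ Gamma0 M := by
    rw [Gamma0_mem]
    exact ((Gamma1_mem M γ).mp hγ).2.2
  rw [actW_typeII_Gamma0 M g γ h0]
  have h00 : ((γ 0 0 : ℤ) : ZMod M) = 1 := ((Gamma1_mem M γ).mp hγ).1
  simp only [h00, mul_one]

/-- The Eisenstein series of type II as a modular form on `Γ₁(M)`. -/
def typeIIMF (M : ℕ) [NeZero M] (g : ZMod M → ℂ) {k : ℤ} (hk : 3 ≤ k) :
    ModularForm ((Gamma1 M : Subgroup SL(2, ℤ)) : Subgroup (GL (Fin 2) ℝ)) k :=
  perMF M (typeII M g) hk (Gamma1 M) (fun γ hγ => actW_typeII_Gamma1 M g γ hγ)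

@[simp] theorem typeIIMF_apply (M : ℕ) [NeZero M] (g : ZMod M → ℂ) {k : ℤ} (hk : 3 ≤ k) (z : ℍ) :
    typeIIMF M g hk z = H332.wEis (perWeight M (typeII M g)) k z := rfl

/-- Nebentypus-type transformation under `Γ₀(M)`. -/
theorem typeII_slash_Gamma0 (M : ℕ) (g : ZMod M → ℂ) (k : ℤ) (γ : SL(2, ℤ)) (hγ : γ ∈ Gamma0 M) :
    H332.wEis (perWeight M (typeII M g)) k ∣[k] γ =
      H332.wEis (perWeight M (typeII M (fun y => g (y * ((γ 0 0 : ℤ) : ZMod M))))) k := by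
  rw [perWeight_slash, actW_typeII_Gamma0 M g γ hγ]

/-! ### The coefficients -/

/-- The symmetrisation `b ↦ g(b) + (-1)^{k+1} g(-b)`. -/
def symG (M : ℕ) (g : ZMod M → ℂ) (k : ℕ) (b : ZMod M) : ℂ := g b + (-1) ^ (k + 1) * g (-b)

theorem symW_typeII (M : ℕ) (g : ZMod M → ℂ) (k c : ℕ) :
    symW M (typeII M g) k c = fun b => if (c : ZMod M) = 0 then symG M g k b else 0 := by
  funext b
  unfold symW typeII symG
  by_cases hc : (c : ZMod M) = 0
  · simp [hc]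
  · have hc' : -(c : ZMod M) ≠ 0 := neg_ne_zero.mpr hc
    simp [hc, hc']

theorem hatG_zero (M : ℕ) (m : ℤ) : hatG M (fun _ => (0 : ℂ)) m = 0 := by
  simp [hatG]

theorem hatG_symW_typeII (M : ℕ) (g : ZMod M → ℂ) (k c : ℕ) (m : ℤ) :
    hatG M (symW M (typeII M g) k c) m =
      if (c : ZMod M) = 0 then hatG M (symG M g k) m else 0 := by
  rw [symW_typeII]
  by_cases hc : (c : ZMod M) = 0
  · simp [hc]
  · simp only [hc, if_false]
    exact hatG_zero M m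

/-- The divisor sum `∑_{c m = n} m^k ĝs(m)`. -/
def sigmaII (M : ℕ) (g : ZMod M → ℂ) (k n : ℕ) : ℂ :=
  ∑ x ∈ n.divisorsAntidiagonal, (x.2 : ℂ) ^ k * hatG M (symG M g k) x.2

theorem sigmaII_zero (M : ℕ) (g : ZMod M → ℂ) (k : ℕ) : sigmaII M g k 0 = 0 := by
  simp [sigmaII]

theorem coefA_typeII_of_not_dvd (M : ℕ) (g : ZMod M → ℂ) (k : ℕ) {n : ℕ} (hn : ¬ M ∣ n) :
    coefA M (typeII M g) k n = 0 := by
  unfold coefA sigma2
  refine Finset.sum_eq_zero fun x hx => ?_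
  have hx' := Nat.mem_divisorsAntidiagonal.mp hx
  have hc : ¬ ((x.1 : ℕ) : ZMod M) = 0 := by
    intro h0
    rw [ZMod.natCast_eq_zero_iff] at h0
    exact hn (h0.trans ⟨x.2, hx'.1.symm⟩)
  beta_reduce
  rw [hatG_symW_typeII, if_neg hc, mul_zero]

theorem coefA_typeII_mul (M : ℕ) [NeZero M] (g : ZMod M → ℂ) (k n : ℕ) :
    coefA M (typeII M g) k (M * n) = sigmaII M g k n := by
  have hM : M ≠ 0 := NeZero.ne M
  unfold coefA sigma2 sigmaII
  by_cases hn : n = 0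
  · subst hn
    simp
  symm
  refine Finset.sum_bij_ne_zero (fun x _ _ => (M * x.1, x.2)) ?_ ?_ ?_ ?_
  · intro x hx _
    have hx' := Nat.mem_divisorsAntidiagonal.mp hx
    rw [Nat.mem_divisorsAntidiagonal]
    refine ⟨?_, Nat.mul_ne_zero hM hn⟩
    show M * x.1 * x.2 = M * n
    rw [mul_assoc, hx'.1]
  · intro x hx _ y hy _ hxy
    have h1 : M * x.1 = M * y.1 := (Prod.mk.inj hxy).1
    have h2 : x.2 = y.2 := (Prod.mk.inj hxy).2
    exact Prod.ext (Nat.eq_of_mul_eq_mul_left (Nat.pos_of_ne_zero hM) h1) h2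
  · intro y hy hne
    have hy' := Nat.mem_divisorsAntidiagonal.mp hy
    have hc : ((y.1 : ℕ) : ZMod M) = 0 := by
      by_contra hc
      apply hne
      beta_reduce
      rw [hatG_symW_typeII, if_neg hc, mul_zero]
    rw [ZMod.natCast_eq_zero_iff] at hc
    obtain ⟨c', hc'⟩ := hc
    refine ⟨(c', y.2), ?_, ?_, ?_⟩
    · rw [Nat.mem_divisorsAntidiagonal]
      refine ⟨?_, hn⟩
      have h1 : M * (c' * y.2) = M * n := by
        rw [← mul_assoc, ← hc', hy'.1]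
      exact Nat.eq_of_mul_eq_mul_left (Nat.pos_of_ne_zero hM) h1
    · intro h0
      apply hne
      beta_reduce
      rw [hatG_symW_typeII, if_pos (by rw [ZMod.natCast_eq_zero_iff]; exact ⟨c', hc'⟩)]
      exact h0
    · exact Prod.ext hc'.symm rfl
  · intro x hx _
    have hc : (((M * x.1 : ℕ)) : ZMod M) = 0 := by
      rw [ZMod.natCast_eq_zero_iff]
      exact ⟨x.1, rfl⟩
    show (x.2 : ℂ) ^ k * hatG M (symG M g k) x.2 =
      (x.2 : ℂ) ^ k * hatG M (symW M (typeII M g) k (M * x.1)) x.2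
    rw [hatG_symW_typeII, if_pos hc]

/-- The coefficients of the expansion in `q = e^{2πiz}`. -/
def coefQ (M : ℕ) (g : ZMod M → ℂ) (k n : ℕ) : ℂ :=
  if n = 0 then constTerm M (typeII M g) k else lipConst M k * sigmaII M g k n

theorem coefX_typeII_mul (M : ℕ) [NeZero M] (g : ZMod M → ℂ) (k n : ℕ) :
    coefX M (typeII M g) k (M * n) = coefQ M g k n := by
  unfold coefX coefQ
  by_cases hn : n = 0
  · subst hn
    simp
  · rw [if_neg (Nat.mul_ne_zero (NeZero.ne M) hn), if_neg hn, coefA_typeII_mul]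

theorem coefX_typeII_of_not_dvd (M : ℕ) [NeZero M] (g : ZMod M → ℂ) (k : ℕ) {n : ℕ}
    (hn : ¬ M ∣ n) : coefX M (typeII M g) k n = 0 := by
  unfold coefX
  have h0 : n ≠ 0 := fun h => hn (h ▸ dvd_zero M)
  rw [if_neg h0, coefA_typeII_of_not_dvd M g k hn, mul_zero]

theorem qParam_M_pow (M : ℕ) [NeZero M] (z : ℂ) (n : ℕ) :
    𝕢 (M : ℝ) z ^ (M * n) = 𝕢 1 z ^ n := by
  have hM : (M : ℂ) ≠ 0 := Nat.cast_ne_zero.mpr (NeZero.ne M)
  simp only [Function.Periodic.qParam]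
  rw [← Complex.exp_nat_mul, ← Complex.exp_nat_mul]
  congr 1
  push_cast
  field_simp

/-- **Expansion in `q`** of the Eisenstein series of type II on `Γ₁(M)`. -/
theorem hasSum_typeII (M : ℕ) [NeZero M] {k : ℕ} (hk : 2 ≤ k) (g : ZMod M → ℂ) (z : ℍ) :
    HasSum (fun n : ℕ => coefQ M g k n • 𝕢 1 (z : ℂ) ^ n)
      (H332.wEis (perWeight M (typeII M g)) ((k + 1 : ℕ) : ℤ) z) := by
  have H := hasSum_wEis_periodic M hk (typeII M g) z
  have hinj : Function.Injective (fun n : ℕ => M * n) := fun a b hab =>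
    Nat.eq_of_mul_eq_mul_left (Nat.pos_of_ne_zero (NeZero.ne M)) hab
  rw [← hinj.hasSum_iff] at H
  · convert H using 1
    funext n
    simp only [Function.comp_apply]
    rw [coefX_typeII_mul, qParam_M_pow]
  · intro n hn
    have hnd : ¬ M ∣ n := by
      rintro ⟨m, rfl⟩
      exact hn ⟨m, rfl⟩
    rw [coefX_typeII_of_not_dvd M g k hnd, zero_smul]

/-- **`q`-expansion coefficients** of the Eisenstein series of type II on `Γ₁(M)`. -/
theorem qExpansion_typeII (M : ℕ) [NeZero M] {k : ℕ} (hk : 2 ≤ k) (g : ZMod M → ℂ) (n : ℕ) :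
    (qExpansion 1 (H332.wEis (perWeight M (typeII M g)) ((k + 1 : ℕ) : ℤ))).coeff n =
      coefQ M g k n := by
  have hk3 : (3 : ℤ) ≤ ((k + 1 : ℕ) : ℤ) := by
    push_cast
    omega
  exact Fermat.Agent.S22T.qExpansion_coeff_of_hasSum one_pos (hasSum_typeII M hk g)
    (perWeight_mdiff M (typeII M g) hk3) n

end Fermat.Agent.S48.H76
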