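import Fermat.Agent.S48.H76.GenQX2

/-!
# S48 / Tower A1, piece GEN-QX, part 3 (helper76): the generators `e_{K,c}` with rational `q`-expansion

For `c : ℤ` and `K = k + 1 ≥ 3` the modular form on `Γ₁(M)`

  `E_{K,c}(z) = (M · (-2πi)^K / ((K-1)! M^K))⁻¹ ∑_{M ∣ c', d} ζ^{-cd} (c' z + d)^{-K}`

has the `q`-expansion with RATIONAL coefficients

  `κ_{K,c} + ∑_{n ≥ 1} (∑_{d ∣ n, d ≡ c (M)} d^{K-1} + (-1)^K ∑_{d ∣ n, d ≡ -c (M)} d^{K-1}) qⁿ`.
-/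

set_option autoImplicit false

open UpperHalfPlane EisensteinSeries ModularForm Filter Topology Complex CongruenceSubgroup
open scoped Matrix MatrixGroups Manifold Real

noncomputable section

namespace Fermat.Agent.S48.H76

open Fermat.Agent.S29

local notation "𝕢" => Function.Periodic.qParam

/-! ### Roots of unity -/

theorem zetaPow_eq_of_dvd_sub (M : ℕ) [NeZero M] {a b : ℤ} (h : (M : ℤ) ∣ a - b) :
    zetaPow M a = zetaPow M b := by
  obtain ⟨t, ht⟩ := h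
  have : a = b + t * M := by linarith [ht, mul_comm (M : ℤ) t]
  rw [this, zetaPow_add_mul]

theorem zetaPow_nat_mul (M : ℕ) (b : ℕ) (a : ℤ) : zetaPow M ((b : ℤ) * a) = zetaPow M a ^ b := by
  unfold zetaPow
  rw [← Complex.exp_nat_mul]
  congr 1
  push_cast
  ring

theorem zetaPow_eq_one_iff (M : ℕ) [NeZero M] (a : ℤ) : zetaPow M a = 1 ↔ (M : ℤ) ∣ a := by
  have hM : (M : ℂ) ≠ 0 := Nat.cast_ne_zero.mpr (NeZero.ne M)
  unfold zetaPow
  rw [Complex.exp_eq_one_iff]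
  constructor
  · rintro ⟨n, hn⟩
    refine ⟨n, ?_⟩
    have h2 : (2 * (π : ℂ) * Complex.I) ≠ 0 := by
      simp [Real.pi_ne_zero, Complex.I_ne_zero]
    have h3 : (a : ℂ) = (M : ℂ) * n := by
      have h4 : (2 * (π : ℂ) * Complex.I) * (a : ℂ) =
          (2 * (π : ℂ) * Complex.I) * ((M : ℂ) * n) := by
        have h5 := congrArg (fun t : ℂ => t * (M : ℂ)) hn
        simp only [div_mul_cancel₀ _ hM] at h5
        rw [h5]
        ring
      exact mul_left_cancel₀ h2 h4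
    exact_mod_cast h3
  · rintro ⟨n, rfl⟩
    refine ⟨n, ?_⟩
    push_cast
    field_simp

/-- Orthogonality: `∑_{b < M} ζ^{ba} = M [M ∣ a]`. -/
theorem sum_range_zetaPow (M : ℕ) [NeZero M] (a : ℤ) :
    ∑ b ∈ Finset.range M, zetaPow M ((b : ℤ) * a) = if (M : ℤ) ∣ a then (M : ℂ) else 0 := by
  simp_rw [zetaPow_nat_mul]
  by_cases h : (M : ℤ) ∣ a
  · rw [if_pos h, (zetaPow_eq_one_iff M a).mpr h]
    simp
  · rw [if_neg h]
    have h1 : zetaPow M a ≠ 1 := fun h1 => h ((zetaPow_eq_one_iff M a).mp h1)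
    rw [geom_sum_eq h1, ← zetaPow_nat_mul, (zetaPow_eq_one_iff M _).mpr ⟨a, rfl⟩, sub_self,
      zero_div]

/-- The weight `b ↦ ζ^{-cb}`. -/
def gZ (M : ℕ) (c : ℤ) (b : ZMod M) : ℂ := zetaPow M (-c * (b.val : ℤ))

theorem gZ_intCast (M : ℕ) [NeZero M] (c d : ℤ) : gZ M c (d : ZMod M) = zetaPow M (-c * d) := by
  unfold gZ
  apply zetaPow_eq_of_dvd_sub
  have h : (((d : ZMod M).val : ℤ) : ZMod M) = (d : ZMod M) := by
    rw [Int.cast_natCast, ZMod.natCast_val, ZMod.cast_id', id]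
  have h2 := (ZMod.intCast_eq_intCast_iff_dvd_sub _ _ M).mp h
  have : -c * ((d : ZMod M).val : ℤ) - -c * d = c * (d - ((d : ZMod M).val : ℤ)) := by ring
  rw [this]
  exact Dvd.dvd.mul_left h2 c

theorem gZ_natCast (M : ℕ) [NeZero M] (c : ℤ) (b : ℕ) :
    gZ M c (b : ZMod M) = zetaPow M (-c * b) := by
  have := gZ_intCast M c (b : ℤ)
  simpa using this

theorem gZ_neg (M : ℕ) [NeZero M] (c : ℤ) (b : ZMod M) : gZ M c (-b) = gZ M (-c) b := by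
  have hb : b = ((b.val : ℤ) : ZMod M) := by
    rw [Int.cast_natCast, ZMod.natCast_val, ZMod.cast_id', id]
  rw [hb, ← Int.cast_neg, gZ_intCast, gZ_intCast]
  congr 1
  ring

theorem hatG_gZ (M : ℕ) [NeZero M] (c m : ℤ) :
    hatG M (gZ M c) m = if (M : ℤ) ∣ m - c then (M : ℂ) else 0 := by
  unfold hatG
  rw [← sum_range_zetaPow M (m - c)]
  refine Finset.sum_congr rfl fun b _ => ?_
  rw [gZ_natCast, ← zetaPow_add]
  congr 1
  ring

theorem symG_gZ (M : ℕ) [NeZero M] (c : ℤ) (k : ℕ) :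
    symG M (gZ M c) k = fun b => gZ M c b + (-1) ^ (k + 1) * gZ M (-c) b := by
  funext b
  unfold symG
  rw [gZ_neg]

theorem hatG_symG_gZ (M : ℕ) [NeZero M] (c : ℤ) (k : ℕ) (m : ℤ) :
    hatG M (symG M (gZ M c) k) m =
      (M : ℂ) * ((if (M : ℤ) ∣ m - c then 1 else 0) +
        (-1) ^ (k + 1) * (if (M : ℤ) ∣ m + c then 1 else 0)) := by
  rw [symG_gZ, hatG_add_smul, hatG_gZ, hatG_gZ, sub_neg_eq_add]
  split_ifs <;> ring

/-! ### The divisor sums -/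

/-- The rational divisor sum
`∑_{d ∣ n, d ≡ c (M)} d^k + (-1)^{k+1} ∑_{d ∣ n, d ≡ -c (M)} d^k`. -/
def divSumQ (M : ℕ) (c : ℤ) (k n : ℕ) : ℚ :=
  ∑ d ∈ n.divisors, (d : ℚ) ^ k *
    ((if (M : ℤ) ∣ (d : ℤ) - c then 1 else 0) +
      (-1) ^ (k + 1) * (if (M : ℤ) ∣ (d : ℤ) + c then 1 else 0))

theorem sigmaII_gZ (M : ℕ) [NeZero M] (c : ℤ) (k n : ℕ) :
    sigmaII M (gZ M c) k n = (M : ℂ) * ((divSumQ M c k n : ℚ) : ℂ) := by
  unfold sigmaII divSumQ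
  rw [Nat.sum_divisorsAntidiagonal' (f := fun _ m : ℕ => (m : ℂ) ^ k *
    hatG M (symG M (gZ M c) k) m)]
  push_cast
  rw [Finset.mul_sum]
  refine Finset.sum_congr rfl fun d _ => ?_
  rw [hatG_symG_gZ]
  split_ifs <;> push_cast <;> ring

/-! ### The constant term -/

/-- The representative `x_c = ((-c) mod M)/M ∈ [0,1)` of `-c/M`. -/
def xQ (M : ℕ) (c : ℤ) : ℚ := (((-c) % (M : ℤ) : ℤ) : ℚ) / (M : ℚ)

theorem xQ_mem_Icc (M : ℕ) [NeZero M] (c : ℤ) : ((xQ M c : ℚ) : ℝ) ∈ Set.Icc (0 : ℝ) 1 := by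
  have hM : (0 : ℤ) < M := by exact_mod_cast Nat.pos_of_ne_zero (NeZero.ne M)
  have h0 : 0 ≤ (-c) % (M : ℤ) := Int.emod_nonneg _ hM.ne'
  have h1 : (-c) % (M : ℤ) < M := Int.emod_lt_of_pos _ hM
  have hMr : (0 : ℝ) < M := by exact_mod_cast hM
  unfold xQ
  push_cast
  constructor
  · apply div_nonneg _ hMr.le
    exact_mod_cast h0
  · rw [div_le_one hMr]
    exact_mod_cast h1.le

/-- The rational constant term `κ = -(-1)^{k+1} M^k B_{k+1}(x_c)/(k+1)`. -/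
def kappaQ (M : ℕ) (c : ℤ) (k : ℕ) : ℚ :=
  -(-1) ^ (k + 1) * (M : ℚ) ^ k * (Polynomial.bernoulli (k + 1)).eval (xQ M c) / (k + 1)

theorem bernoulliFun_ratCast (K : ℕ) (x : ℚ) :
    bernoulliFun K (x : ℝ) = (((Polynomial.bernoulli K).eval x : ℚ) : ℝ) := by
  unfold bernoulliFun
  rw [Polynomial.eval_map]
  have := Polynomial.eval₂_at_apply (p := Polynomial.bernoulli K) (algebraMap ℚ ℝ) x
  simpa using this

theorem fourier_xQ (M : ℕ) [NeZero M] (c d : ℤ) :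
    (fourier d (((xQ M c : ℚ) : ℝ) : UnitAddCircle) : ℂ) = zetaPow M (-c * d) := by
  have hM : (M : ℂ) ≠ 0 := Nat.cast_ne_zero.mpr (NeZero.ne M)
  rw [fourier_coe_apply]
  have h1 : zetaPow M (-c * d) = zetaPow M (d * ((-c) % (M : ℤ))) := by
    apply zetaPow_eq_of_dvd_sub
    have h2 : (M : ℤ) ∣ -c - (-c) % (M : ℤ) := Int.dvd_self_sub_emod
    have : -c * d - d * ((-c) % (M : ℤ)) = d * (-c - (-c) % (M : ℤ)) := by ring
    rw [this]
    exact Dvd.dvd.mul_left h2 d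
  rw [h1]
  unfold zetaPow xQ
  congr 1
  push_cast
  field_simp

theorem constTerm_gZ (M : ℕ) [NeZero M] (c : ℤ) {k : ℕ} (hk : 1 ≤ k) :
    constTerm M (typeII M (gZ M c)) k = lipConst M k * (M : ℂ) * ((kappaQ M c k : ℚ) : ℂ) := by
  have hM : (M : ℂ) ≠ 0 := Nat.cast_ne_zero.mpr (NeZero.ne M)
  have H := hasSum_one_div_pow_mul_fourier_mul_bernoulliFun (k := k + 1) (by omega)
    (xQ_mem_Icc M c)
  have h1 : constTerm M (typeII M (gZ M c)) k =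
      ∑' d : ℤ, 1 / (d : ℂ) ^ (k + 1) * (fourier d (((xQ M c : ℚ) : ℝ) : UnitAddCircle) : ℂ) := by
    unfold constTerm
    refine tsum_congr fun d => ?_
    rw [fourier_xQ]
    simp only [typeII, if_true]
    rw [gZ_intCast, one_div, mul_comm]
  rw [h1, H.tsum_eq, bernoulliFun_ratCast]
  unfold kappaQ lipConst
  have hk1 : ((k : ℂ) + 1) ≠ 0 := by
    have : ((k + 1 : ℕ) : ℂ) ≠ 0 := Nat.cast_ne_zero.mpr (Nat.succ_ne_zero k)
    simpa using this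
  have hfac : ((k.factorial : ℕ) : ℂ) ≠ 0 := Nat.cast_ne_zero.mpr (Nat.factorial_ne_zero k)
  rw [Nat.factorial_succ]
  push_cast
  have hsign : (-2 * (π : ℂ) * Complex.I) ^ (k + 1) =
      (-1) ^ (k + 1) * (2 * π * Complex.I) ^ (k + 1) := by
    rw [← mul_pow]
    ring_nf
  rw [hsign]
  have hsq : ((-1 : ℂ)) ^ (k + 1) * (-1) ^ (k + 1) = 1 := by
    rw [← mul_pow]
    norm_num
  generalize ((-1 : ℂ)) ^ (k + 1) = s at hsq ⊢
  generalize (2 * (π : ℂ) * Complex.I) ^ (k + 1) = A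
  generalize ((Polynomial.eval (xQ M c) (Polynomial.bernoulli (k + 1)) : ℚ) : ℂ) = B
  generalize ((k.factorial : ℕ) : ℂ) = F at hfac ⊢
  have e : s * A / (F * (M : ℂ) ^ (k + 1)) * M * (-s * (M : ℂ) ^ k * B / ((k : ℂ) + 1)) =
      (s * s) * (-A / (((k : ℂ) + 1) * F) * B) := by
    field_simp
    ring
  rw [e, hsq, one_mul]

/-! ### The generators -/

/-- The rational `q`-series `e_{k+1,c} = κ + ∑_{n ≥ 1} (∑_{d ∣ n, d ≡ c} d^k
+ (-1)^{k+1} ∑_{d ∣ n, d ≡ -c} d^k) qⁿ`. -/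
def eisQ (M : ℕ) (c : ℤ) (k : ℕ) : PowerSeries ℚ :=
  PowerSeries.mk fun n => if n = 0 then kappaQ M c k else divSumQ M c k n

/-- The normalising constant `M (-2πi)^{k+1} / (k! M^{k+1})`. -/
def normC (M k : ℕ) : ℂ := lipConst M k * (M : ℂ)

theorem normC_ne_zero (M : ℕ) [NeZero M] (k : ℕ) : normC M k ≠ 0 := by
  have hM : (M : ℂ) ≠ 0 := Nat.cast_ne_zero.mpr (NeZero.ne M)
  have hfac : ((k.factorial : ℕ) : ℂ) ≠ 0 := Nat.cast_ne_zero.mpr (Nat.factorial_ne_zero k)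
  unfold normC lipConst
  refine mul_ne_zero (div_ne_zero (pow_ne_zero _ ?_) (mul_ne_zero hfac (pow_ne_zero _ hM))) hM
  simp [Real.pi_ne_zero, Complex.I_ne_zero]

theorem coefQ_gZ (M : ℕ) [NeZero M] (c : ℤ) {k : ℕ} (hk : 1 ≤ k) (n : ℕ) :
    coefQ M (gZ M c) k n = normC M k * (((eisQ M c k).coeff n : ℚ) : ℂ) := by
  unfold coefQ eisQ normC
  rw [PowerSeries.coeff_mk]
  by_cases hn : n = 0
  · rw [if_pos hn, if_pos hn, constTerm_gZ M c hk]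
  · rw [if_neg hn, if_neg hn, sigmaII_gZ]
    ring

/-- The modular form `E_{k+1,c}` on `Γ₁(M)` (weight `k + 1 ≥ 3`). -/
def eisForm (M : ℕ) [NeZero M] (c : ℤ) {k : ℕ} (hk : 2 ≤ k) :
    ModularForm ((Gamma1 M : Subgroup SL(2, ℤ)) : Subgroup (GL (Fin 2) ℝ)) ((k + 1 : ℕ) : ℤ) :=
  (normC M k)⁻¹ • typeIIMF M (gZ M c) (k := ((k + 1 : ℕ) : ℤ)) (by push_cast; omega)

theorem eisForm_apply (M : ℕ) [NeZero M] (c : ℤ) {k : ℕ} (hk : 2 ≤ k) (z : ℍ) :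
    eisForm M c hk z =
      (normC M k)⁻¹ * H332.wEis (perWeight M (typeII M (gZ M c))) ((k + 1 : ℕ) : ℤ) z := rfl

/-- **The `q`-expansion of the generator `E_{k+1,c}`** (`HasSum` form). -/
theorem hasSum_eisForm (M : ℕ) [NeZero M] (c : ℤ) {k : ℕ} (hk : 2 ≤ k) (z : ℍ) :
    HasSum (fun n : ℕ => (((eisQ M c k).coeff n : ℚ) : ℂ) • 𝕢 1 (z : ℂ) ^ n)
      (eisForm M c hk z) := by
  have H := (hasSum_typeII M hk (gZ M c) z).mul_left (normC M k)⁻¹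
  rw [eisForm_apply]
  have hfun : (fun n : ℕ => (((eisQ M c k).coeff n : ℚ) : ℂ) • 𝕢 1 (z : ℂ) ^ n) =
      fun n : ℕ => (normC M k)⁻¹ * (coefQ M (gZ M c) k n • 𝕢 1 (z : ℂ) ^ n) := by
    funext n
    rw [coefQ_gZ M c (by omega) n, smul_eq_mul, smul_eq_mul, mul_assoc,
      ← mul_assoc (normC M k)⁻¹, inv_mul_cancel₀ (normC_ne_zero M k), one_mul]
  rw [hfun]
  exact H

/-- **The `q`-expansion of the generator `E_{k+1,c}`** has the rational coefficients `eisQ`. -/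
theorem qExpansion_eisForm_coeff (M : ℕ) [NeZero M] (c : ℤ) {k : ℕ} (hk : 2 ≤ k) (n : ℕ) :
    (qExpansion 1 (eisForm M c hk)).coeff n = (((eisQ M c k).coeff n : ℚ) : ℂ) :=
  Fermat.Agent.S22T.qExpansion_coeff_of_hasSum one_pos (hasSum_eisForm M c hk)
    (eisForm M c hk).holo' n

theorem qExpansion_eisForm (M : ℕ) [NeZero M] (c : ℤ) {k : ℕ} (hk : 2 ≤ k) :
    qExpansion 1 (eisForm M c hk) = (eisQ M c k).map (algebraMap ℚ ℂ) := by
  ext n
  rw [qExpansion_eisForm_coeff, PowerSeries.coeff_map]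
  rfl

/-- The generator depends only on `c` modulo `M`. -/
theorem gZ_congr (M : ℕ) [NeZero M] {c c' : ℤ} (h : (M : ℤ) ∣ c - c') : gZ M c = gZ M c' := by
  funext b
  unfold gZ
  apply zetaPow_eq_of_dvd_sub
  have : -c * (b.val : ℤ) - -c' * (b.val : ℤ) = -(b.val : ℤ) * (c - c') := by ring
  rw [this]
  exact Dvd.dvd.mul_left h _

/-- **Diamond action**: for `γ ∈ Γ₀(M)` with upper left entry `a`, `E_{K,c} ∣ γ = E_{K, c a}`. -/
theorem eisForm_slash_Gamma0 (M : ℕ) [NeZero M] (c : ℤ) {k : ℕ} (hk : 2 ≤ k) (γ : SL(2, ℤ))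
    (hγ : γ ∈ Gamma0 M) :
    (⇑(eisForm M c hk)) ∣[((k + 1 : ℕ) : ℤ)] γ = ⇑(eisForm M (c * γ 0 0) hk) := by
  have h1 : (⇑(eisForm M c hk) : ℍ → ℂ) =
      (normC M k)⁻¹ • H332.wEis (perWeight M (typeII M (gZ M c))) ((k + 1 : ℕ) : ℤ) := by
    funext z
    rfl
  have h2 : (⇑(eisForm M (c * γ 0 0) hk) : ℍ → ℂ) =
      (normC M k)⁻¹ • H332.wEis (perWeight M (typeII M (gZ M (c * γ 0 0)))) ((k + 1 : ℕ) : ℤ) := by
    funext z
    rfl
  have hg : (fun y : ZMod M => gZ M c (y * ((γ 0 0 : ℤ) : ZMod M))) = gZ M (c * γ 0 0) := by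
    funext y
    have hy : y = ((y.val : ℤ) : ZMod M) := by
      rw [Int.cast_natCast, ZMod.natCast_val, ZMod.cast_id', id]
    have e1 : gZ M c (y * ((γ 0 0 : ℤ) : ZMod M)) =
        gZ M c ((((y.val : ℤ) * (γ 0 0 : ℤ) : ℤ)) : ZMod M) := by
      rw [Int.cast_mul, ← hy]
    have e2 : gZ M (c * γ 0 0) y = gZ M (c * γ 0 0) ((y.val : ℤ) : ZMod M) := by
      rw [← hy]
    rw [e1, e2, gZ_intCast, gZ_intCast]
    congr 1
    ring
  rw [h1, h2, ModularForm.SL_smul_slash, typeII_slash_Gamma0 M _ _ γ hγ, hg]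

end Fermat.Agent.S48.H76
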